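import Fermat.Agent.TwoAdic.Universal.Defs
import Mathlib.RingTheory.TensorProduct.Free

/-!
# A matrix criterion for signed lines

If in some basis the decomposition group is upper triangular (after applying `f`), inertia has
lower right entry `1` and Frobenius lower right entry `u`, the base change along `f` has a signed
line with sign `u`.
-/

set_option autoImplicit false

noncomputable section

open Matrix
open scoped TensorProduct

namespace Fermat.Agent.TwoAdic

/-- The coordinate description of the first line of a basis. -/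
lemma mem_span_first_iff {R V : Type*} [CommRing R] [AddCommGroup V] [Module R V]
    (b : Module.Basis (Fin 2) R V) (v : V) : v ∈ R ∙ b 0 ↔ b.repr v 1 = 0 := by
  refine ⟨fun h => ?_, fun h => Submodule.mem_span_singleton.2 ⟨b.repr v 0, ?_⟩⟩
  · obtain ⟨r, rfl⟩ := Submodule.mem_span_singleton.1 h
    simp
  · conv_rhs => rw [← b.sum_repr v, Fin.sum_univ_two, h, zero_smul, add_zero]

variable {A : Type} [CommRing A] [IsLocalRing A] (ρ : GaloisRepAdic A)
  {P : ValuationSubring (AlgebraicClosure ℚ)} {F : AlgebraicClosure ℚ ≃ₐ[ℚ] AlgebraicClosure ℚ}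
  {u : A}

/-- A signed line from the second row of the matrices. -/
theorem hasSignedLineAt_of_matrix (b : Module.Basis (Fin 2) A ρ.V)
    (hD : ∀ σ ∈ P.decompositionSubgroup ℚ, LinearMap.toMatrix b b (ρ.ρ σ) 1 0 = 0)
    (hID : P.inertiaSubgroupIn ℚ ≤ P.decompositionSubgroup ℚ)
    (hI : ∀ σ ∈ P.inertiaSubgroupIn ℚ, LinearMap.toMatrix b b (ρ.ρ σ) 1 1 = 1)
    (hF : F ∈ P.decompositionSubgroup ℚ) (hu : LinearMap.toMatrix b b (ρ.ρ F) 1 1 = u) :
    HasSignedLineAt ρ P F u := by
  have key : ∀ σ ∈ P.decompositionSubgroup ℚ, ∀ x : ρ.V,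
      b.repr (ρ.ρ σ x) 1 = LinearMap.toMatrix b b (ρ.ρ σ) 1 1 * b.repr x 1 := by
    intro σ hσ x
    conv_lhs => rw [← b.sum_repr x, Fin.sum_univ_two]
    have h0 := hD σ hσ
    rw [LinearMap.toMatrix_apply] at h0
    simp [h0, LinearMap.toMatrix_apply, mul_comm]
  refine ⟨A ∙ b 0, ⟨b, rfl⟩, fun σ hσ x hx => ?_, fun σ hσ x => ?_, fun x => ?_⟩
  · rw [mem_span_first_iff] at hx ⊢
    rw [key σ hσ, hx, mul_zero]
  · rw [mem_span_first_iff, map_sub, Finsupp.sub_apply, key σ (hID hσ), hI σ hσ, one_mul, sub_self]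
  · rw [mem_span_first_iff, map_sub, Finsupp.sub_apply, key F hF, hu, map_smul,
      Finsupp.smul_apply, smul_eq_mul, sub_self]

/-- A signed line on a base change from the second row of the matrices. -/
theorem hasSignedLineAt_baseChangeAlong {B : Type} [CommRing B] [IsLocalRing B] (f : A →+* B)
    (hf : IsLocalHom f) (b : Module.Basis (Fin 2) A ρ.V)
    (hD : ∀ σ ∈ P.decompositionSubgroup ℚ, f (LinearMap.toMatrix b b (ρ.ρ σ) 1 0) = 0)
    (hID : P.inertiaSubgroupIn ℚ ≤ P.decompositionSubgroup ℚ)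
    (hI : ∀ σ ∈ P.inertiaSubgroupIn ℚ, f (LinearMap.toMatrix b b (ρ.ρ σ) 1 1) = 1)
    (hF : F ∈ P.decompositionSubgroup ℚ) (hu : f (LinearMap.toMatrix b b (ρ.ρ F) 1 1) = f u) :
    HasSignedLineAt (ρ.baseChangeAlong f hf) P F (f u) := by
  let := f.toAlgebra
  let b' : Module.Basis (Fin 2) B (ρ.baseChangeAlong f hf).V :=
    Algebra.TensorProduct.basis B b
  have hM : ∀ σ, LinearMap.toMatrix b' b' ((ρ.baseChangeAlong f hf).ρ σ) =
      (LinearMap.toMatrix b b (ρ.ρ σ)).map f := fun σ =>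
    LinearMap.toMatrix_baseChange (A := B) (ρ.ρ σ) b b
  refine hasSignedLineAt_of_matrix _ b' (fun σ hσ => ?_) hID (fun σ hσ => ?_) hF ?_
  · rw [hM]; exact hD σ hσ
  · rw [hM]; exact hI σ hσ
  · rw [hM]; exact hu

end Fermat.Agent.TwoAdic
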