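import Fermat.Agent.TwoAdic.Switch.Galois.Image
import Fermat.Agent.TwoAdic.Switch.Galois.SignedLine
import Fermat.Agent.RT.LocalQ.Decomposition
import Fermat.Agent.Density.PlacesConj

/-!
# Local lines on the Tate module at the bad primes and at auxiliary primes

At a bad prime with odd `ord_q Δ`: a Frobenius element acting residually as the transvection of
the decomposition line, and its sign.  At a prime where the level `n` representation is unramified
with Frobenius conjugate to complex conjugation: lines modulo `2ⁿ` with either sign.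
-/

set_option autoImplicit false

noncomputable section

open Matrix WeierstrassCurve
open scoped WeierstrassCurve.Affine Pointwise

namespace Fermat.Agent.TwoAdic

local notation "Qb" => AlgebraicClosure ℚ
local notation "Γℚ" => (AlgebraicClosure ℚ ≃ₐ[ℚ] AlgebraicClosure ℚ)

variable {W : WeierstrassCurve ℤ} [(W.map (Int.castRingHom ℚ)).IsElliptic]

local notation "ρT" => GaloisRepAdic.ρ (EC.tateRep (W.map (Int.castRingHom ℚ)) 2)

/-- The level representations factor through finite extensions. -/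
theorem levelHom_finite_level
    (b : Module.Basis (Fin 2) ℤ_[2] (EC.tateRep (W.map (Int.castRingHom ℚ)) 2).V) (n : ℕ) :
    ∃ L : IntermediateField ℚ Qb, FiniteDimensional ℚ L ∧
      ∀ σ : Γℚ, (∀ x ∈ L, σ x = x) → levelHom b n σ = 1 := by
  obtain ⟨L, hL, h⟩ := (EC.tateRep (W.map (Int.castRingHom ℚ)) 2).isAdicContinuous n
  refine ⟨L, hL, fun σ hσ => ?_⟩
  have hzero : ∀ v ∈ (IsLocalRing.maximalIdeal ℤ_[2] ^ n) •
      (⊤ : Submodule ℤ_[2] (EC.tateRep (W.map (Int.castRingHom ℚ)) 2).V),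
      ∀ i, PadicInt.toZModPow n (b.repr v i) = 0 := by
    intro v hv i
    refine Submodule.smul_induction_on hv (fun a ha w _ => ?_) fun x y hx hy => ?_
    · rw [PadicInt.maximalIdeal_eq_span_p, Ideal.span_singleton_pow, ← PadicInt.ker_toZModPow,
        RingHom.mem_ker] at ha
      rw [map_smul, Finsupp.smul_apply, smul_eq_mul, map_mul, ha, zero_mul]
    · rw [map_add, Finsupp.add_apply, map_add, hx, hy, add_zero]
  refine Units.ext ?_
  rw [coe_levelHom, Units.val_one]
  ext i j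
  have := hzero _ (h σ hσ (b j)) i
  rw [map_sub, Finsupp.sub_apply, map_sub, sub_eq_zero] at this
  rw [Matrix.map_apply, LinearMap.toMatrix_apply, this, Module.Basis.repr_self,
    Finsupp.single_apply, Matrix.one_apply]
  rcases eq_or_ne i j with rfl | hij
  · simp
  · simp [hij, Ne.symm hij]

/-! ### Complex conjugation -/

theorem tateRep_complexConjugation_mul_self :
    ρT complexConjugation * ρT complexConjugation = 1 := by
  rw [← map_mul, complexConjugation_mul_self, map_one]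

/-- Complex conjugation is residually non-trivial when `Δ < 0`. -/
theorem toMatrix_complexConjugation_map_ne_one (hΔ : W.Δ < 0)
    (b : Module.Basis (Fin 2) ℤ_[2] (EC.tateRep (W.map (Int.castRingHom ℚ)) 2).V) :
    (LinearMap.toMatrix b b (ρT complexConjugation)).map PadicInt.toZMod ≠ 1 := by
  intro h
  obtain ⟨P, hP, hne⟩ := exists_two_torsion_complexConjugation_ne hΔ
  exact hne (smul_eq_self_of_toMatrix_map_eq_one h P hP)

theorem redMat_levelHom_complexConjugation_ne_one (hΔ : W.Δ < 0)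
    (b : Module.Basis (Fin 2) ℤ_[2] (EC.tateRep (W.map (Int.castRingHom ℚ)) 2).V) {n : ℕ}
    (hn : n ≠ 0) : (redGL hn (levelHom b n complexConjugation)).1 ≠ 1 := by
  rw [redMat_levelHom]
  exact toMatrix_complexConjugation_map_ne_one hΔ b

theorem levelHom_complexConjugation_mul_self
    (b : Module.Basis (Fin 2) ℤ_[2] (EC.tateRep (W.map (Int.castRingHom ℚ)) 2).V) (n : ℕ) :
    levelHom b n complexConjugation * levelHom b n complexConjugation = 1 := by
  rw [← map_mul, complexConjugation_mul_self, map_one]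

/-- A basis in which complex conjugation is `!![-u, 1; 0, u]`, for either sign `u`. -/
theorem exists_basis_complexConjugation (hΔ : W.Δ < 0) (u : ℤ_[2]) (hu : u * u = 1) :
    ∃ b : Module.Basis (Fin 2) ℤ_[2] (EC.tateRep (W.map (Int.castRingHom ℚ)) 2).V,
      LinearMap.toMatrix b b (ρT complexConjugation) = !![-u, 1; 0, u] := by
  let e := EC.tateRepBasis (W.map (Int.castRingHom ℚ)) 2
  set M := LinearMap.toMatrix e e (ρT complexConjugation) with hMdef
  obtain ⟨j, hj⟩ : ∃ j, IsUnit (e.det ![e j, ρT complexConjugation (e j)]) := by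
    have hM2 : M * M = 1 := by
      rw [hMdef, ← LinearMap.toMatrix_comp, ← Module.End.mul_eq_comp,
        tateRep_complexConjugation_mul_self]
      exact LinearMap.toMatrix_id e
    have hdet : ∀ j, e.det ![e j, ρT complexConjugation (e j)] =
        if j = 0 then M 1 0 else -M 0 1 := by
      intro j
      rw [Module.Basis.det_apply, Matrix.det_fin_two]
      fin_cases j <;> simp [Module.Basis.toMatrix_apply, M, LinearMap.toMatrix_apply]
    by_contra! hcon
    have h10 : PadicInt.toZMod (M 1 0) = 0 := by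
      rw [← RingHom.mem_ker, PadicInt.ker_toZMod, IsLocalRing.mem_maximalIdeal]
      simpa [hdet] using hcon 0
    have h01 : PadicInt.toZMod (M 0 1) = 0 := by
      rw [← RingHom.mem_ker, PadicInt.ker_toZMod, IsLocalRing.mem_maximalIdeal]
      simpa [hdet] using hcon 1
    have h2 := congrArg (fun X : Matrix (Fin 2) (Fin 2) ℤ_[2] => X.map PadicInt.toZMod) hM2
    simp only [Matrix.map_mul] at h2
    have hsq : ∀ a : ZMod 2, a * a = 1 → a = 1 := by decide
    refine toMatrix_complexConjugation_map_ne_one hΔ e ?_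
    rw [← hMdef]
    have h00 := congrFun (congrFun h2 0) 0
    have h11 := congrFun (congrFun h2 1) 1
    simp [Matrix.mul_apply, Fin.sum_univ_two, h10, h01] at h00 h11
    ext i k
    fin_cases i <;> fin_cases k <;> simp [h10, h01, h00, h11]
  set v := e j
  set w := ρT complexConjugation v with hw
  have hcw : ρT complexConjugation w = v := by
    rw [hw, ← Module.End.mul_apply, tateRep_complexConjugation_mul_self, Module.End.one_apply]
  have hdet : e.det ![v + (-u) • w, w] = e.det ![v, w] := by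
    simp only [Module.Basis.det_apply, Matrix.det_fin_two, Module.Basis.toMatrix_apply]
    simp
    ring
  rw [← hdet] at hj
  obtain ⟨hli, hsp⟩ := (Module.Basis.is_basis_iff_det e).2 hj
  let b := Module.Basis.mk hli hsp.ge
  have hb0 : b 0 = v + (-u) • w := by simp [b]
  have hb1 : b 1 = w := by simp [b]
  have e0 : ρT complexConjugation (b 0) = (-u) • b 0 := by
    rw [hb0, map_add, map_smul, hcw, ← hw, smul_add, smul_smul, neg_mul_neg, hu, one_smul,
      add_comm]
  have e1 : ρT complexConjugation (b 1) = b 0 + u • b 1 := by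
    rw [hb1, hcw, hb0, add_assoc, ← add_smul, neg_add_cancel, zero_smul, add_zero]
  refine ⟨b, ?_⟩
  ext i k
  fin_cases i <;> fin_cases k <;> simp [LinearMap.toMatrix_apply, e0, e1]

/-- A basis in which a conjugate of complex conjugation is `!![-u, 1; 0, u]`. -/
theorem exists_basis_conj_complexConjugation (hΔ : W.Δ < 0) (u : ℤ_[2]) (hu : u * u = 1)
    (a : Γℚ) :
    ∃ b : Module.Basis (Fin 2) ℤ_[2] (EC.tateRep (W.map (Int.castRingHom ℚ)) 2).V,
      LinearMap.toMatrix b b (ρT (a * complexConjugation * a⁻¹)) = !![-u, 1; 0, u] := by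
  obtain ⟨b, hb⟩ := exists_basis_complexConjugation hΔ u hu
  let e : (EC.tateRep (W.map (Int.castRingHom ℚ)) 2).V ≃ₗ[ℤ_[2]]
      (EC.tateRep (W.map (Int.castRingHom ℚ)) 2).V :=
    LinearEquiv.ofLinear (ρT a) (ρT a⁻¹)
      (by rw [← Module.End.mul_eq_comp, ← map_mul, mul_inv_cancel, map_one]; rfl)
      (by rw [← Module.End.mul_eq_comp, ← map_mul, inv_mul_cancel, map_one]; rfl)
  refine ⟨b.map e, ?_⟩
  rw [← hb]
  ext i k
  rw [LinearMap.toMatrix_apply, LinearMap.toMatrix_apply, Module.Basis.map_apply,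
    Module.Basis.map_repr, LinearEquiv.trans_apply]
  congr 2
  show ρT a⁻¹ (ρT (a * complexConjugation * a⁻¹) (ρT a (b k))) = _
  rw [← Module.End.mul_apply, ← map_mul, ← Module.End.mul_apply, ← map_mul]
  congr 1
  congr 1
  group

/-! ### Auxiliary primes -/

/-- **Lines modulo `2ⁿ` at a prime with Frobenius conjugate to complex conjugation**, with either
sign. -/
theorem exists_line_of_frobenius_conj (hΔ : W.Δ < 0) {q : ℕ} (hq : q.Prime)
    {A : ValuationSubring Qb} (hA : A.LiesOverPrime q) {F : Γℚ} (hF : A.IsFrobeniusAt F q)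
    (b₀ : Module.Basis (Fin 2) ℤ_[2] (EC.tateRep (W.map (Int.castRingHom ℚ)) 2).V) {n : ℕ}
    (hI : ∀ τ ∈ A.inertiaSubgroupIn ℚ, levelHom b₀ n τ = 1)
    (hFc : ∃ a : Γℚ, levelHom b₀ n F = levelHom b₀ n (a * complexConjugation * a⁻¹))
    (u : ℤ_[2]) (hu : u * u = 1) :
    ∃ b : Module.Basis (Fin 2) ℤ_[2] (EC.tateRep (W.map (Int.castRingHom ℚ)) 2).V,
      (∀ σ ∈ A.decompositionSubgroup ℚ,
        PadicInt.toZModPow n (LinearMap.toMatrix b b (ρT σ) 1 0) = 0) ∧
      (∀ σ ∈ A.inertiaSubgroupIn ℚ,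
        PadicInt.toZModPow n (LinearMap.toMatrix b b (ρT σ) 1 1) = 1) ∧
      PadicInt.toZModPow n (LinearMap.toMatrix b b (ρT F) 1 1) = PadicInt.toZModPow n u := by
  obtain ⟨a, ha⟩ := hFc
  obtain ⟨b, hb⟩ := exists_basis_conj_complexConjugation hΔ u hu a
  obtain ⟨γ, hγ⟩ := exists_conj_levelHom b₀ b n
  have hI' : ∀ τ ∈ A.inertiaSubgroupIn ℚ, levelHom b n τ = 1 := fun τ hτ => by
    rw [hγ, hI τ hτ, mul_one, mul_inv_cancel]
  have hF' : (levelHom b n F).1 = !![-PadicInt.toZModPow n u, 1; 0, PadicInt.toZModPow n u] := by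
    rw [hγ, ha, ← hγ, coe_levelHom, hb]
    ext i k
    fin_cases i <;> fin_cases k <;> simp
  refine ⟨b, fun σ hσ => ?_, fun σ hσ => ?_, ?_⟩
  · obtain ⟨s, hs, i, hi⟩ := RT.exists_inertia_mul_frobenius_pow (levelHom b n)
      (levelHom_finite_level b n) hq hA hF hσ
    have h : ∀ i : ℕ, (levelHom b n F ^ i).1 1 0 = 0 := by
      intro i
      induction i with
      | zero => simp
      | succ i ih =>
        rw [pow_succ, Units.val_mul, hF', Matrix.mul_apply, Fin.sum_univ_two, ih]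
        simp
    have h10 := congrArg (fun g : GL (Fin 2) (ZMod (2 ^ n)) => g.1 1 0) hi
    rw [hI' s hs, mul_one, coe_levelHom, Matrix.map_apply, h i] at h10
    exact h10
  · have h11 := congrArg (fun g : GL (Fin 2) (ZMod (2 ^ n)) => g.1 1 1) (hI' σ hσ)
    simpa [coe_levelHom] using h11
  · have h11 := congrFun (congrFun hF' 1) 1
    simpa [coe_levelHom] using h11

/-- The signed line of the point `E mod 2ⁿ` at such a prime. -/
theorem hasSignedLineAt_of_frobenius_conj (hΔ : W.Δ < 0) {q : ℕ} (hq : q.Prime)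
    {A : ValuationSubring Qb} (hA : A.LiesOverPrime q) {F : Γℚ} (hF : A.IsFrobeniusAt F q)
    (b₀ : Module.Basis (Fin 2) ℤ_[2] (EC.tateRep (W.map (Int.castRingHom ℚ)) 2).V) {n : ℕ}
    (hI : ∀ τ ∈ A.inertiaSubgroupIn ℚ, levelHom b₀ n τ = 1)
    (hFc : ∃ a : Γℚ, levelHom b₀ n F = levelHom b₀ n (a * complexConjugation * a⁻¹))
    {B : Type} [CommRing B] [IsLocalRing B] (f : ℤ_[2] →+* B) (hf : IsLocalHom f)
    (hn : f ((2 : ℤ_[2]) ^ n) = 0) (u : ℤ_[2]) (hu : u * u = 1) :
    HasSignedLineAt ((EC.tateRep (W.map (Int.castRingHom ℚ)) 2).baseChangeAlong f hf) A F (f u) := by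
  obtain ⟨b, hD, hI', hFu⟩ := exists_line_of_frobenius_conj hΔ hq hA hF b₀ hI hFc u hu
  have hker : ∀ x y, PadicInt.toZModPow n x = PadicInt.toZModPow n y → f x = f y := by
    intro x y h
    rw [← sub_eq_zero, ← map_sub, ← RingHom.mem_ker, PadicInt.ker_toZModPow,
      Ideal.mem_span_singleton'] at h
    obtain ⟨c, hc⟩ := h
    rw [← sub_eq_zero, ← map_sub, ← hc, map_mul]
    exact mul_eq_zero_of_right _ hn
  exact hasSignedLineAt_baseChangeAlong _ f hf b
    (fun σ hσ => (hker _ 0 (by rw [hD σ hσ, map_zero])).trans (map_zero f))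
    (fun σ hσ => EC.Mult.mem_decompositionSubgroup_of_mem_inertia hσ)
    (fun σ hσ => (hker _ 1 (by rw [hI' σ hσ, map_one])).trans (map_one f))
    hF.mem_decompositionSubgroup (hker _ _ hFu)

/-! ### Bad primes -/

/-- A Frobenius times an inertia element is a Frobenius. -/
theorem isFrobeniusAt_mul_inertia {A : ValuationSubring Qb} {q : ℕ} {F s : Γℚ}
    (hF : A.IsFrobeniusAt F q) (hs : s ∈ A.inertiaSubgroupIn ℚ) : A.IsFrobeniusAt (F * s) q := by
  rw [Density.isFrobeniusAt_iff] at hF ⊢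
  rw [Density.mem_inertiaSubgroupIn_iff] at hs
  refine ⟨(A.decompositionSubgroup ℚ).mul_mem hF.1 hs.1, fun x hx => ?_⟩
  have h1 : (F * s) x - x ^ q = F (s x - x) + (F x - x ^ q) := by
    rw [map_sub, AlgEquiv.mul_apply]; ring
  rw [h1]
  refine add_mem ?_ (hF.2 x hx)
  have h3 := (Density.smul_mem_nonunits_smul_iff (a := F) (A := A)).mpr (hs.2 x hx)
  rwa [MulAction.mem_stabilizer_iff.mp hF.1] at h3

/-- **The signed line at a bad prime**, with a residually non-trivial Frobenius. -/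
theorem exists_frobenius_line_bad {q : ℕ} (hq : q.Prime) (hΔ : W.Δ ≠ 0) (hbad : (q : ℤ) ∣ W.Δ)
    (hc4 : ¬ (q : ℤ) ∣ W.c₄) (hv : Odd (padicValInt q W.Δ)) (A : ValuationSubring Qb)
    (hA : A.LiesOverPrime q) :
    ∃ F : Γℚ, A.IsFrobeniusAt F q ∧
      ∃ (b : Module.Basis (Fin 2) ℤ_[2] (EC.tateRep (W.map (Int.castRingHom ℚ)) 2).V) (u : ℤ_[2]),
        u * u = 1 ∧
        (∀ σ ∈ A.decompositionSubgroup ℚ, LinearMap.toMatrix b b (ρT σ) 1 0 = 0) ∧
        (∀ σ ∈ A.inertiaSubgroupIn ℚ, LinearMap.toMatrix b b (ρT σ) 1 1 = 1) ∧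
        LinearMap.toMatrix b b (ρT F) 1 1 = u ∧
        (LinearMap.toMatrix b b (ρT F)).map PadicInt.toZMod = !![1, 1; 0, 1] ∧
        ∀ σ ∈ A.decompositionSubgroup ℚ, ∃ t : ZMod 2,
          (LinearMap.toMatrix b b (ρT σ)).map PadicInt.toZMod = !![1, t; 0, 1] := by
  obtain ⟨b, hD, hI, hz, s, hs, x, y, hsmat, hy, -⟩ :=
    exists_tateLine_transvection hq hΔ hbad hc4 hv A hA
  have h10 : ∀ σ ∈ A.decompositionSubgroup ℚ, LinearMap.toMatrix b b (ρT σ) 1 0 = 0 := by
    intro σ hσ
    rw [LinearMap.toMatrix_apply]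
    exact (mem_span_first_iff b _).1 (hD σ hσ _ (Submodule.mem_span_singleton_self _))
  have h11 : ∀ σ ∈ A.inertiaSubgroupIn ℚ, LinearMap.toMatrix b b (ρT σ) 1 1 = 1 := by
    intro σ hσ
    have h := (mem_span_first_iff b _).1 (hI σ hσ (b 1))
    rw [map_sub, Finsupp.sub_apply, sub_eq_zero] at h
    rw [LinearMap.toMatrix_apply, h]
    simp
  have hres : ∀ σ ∈ A.decompositionSubgroup ℚ, ∃ t : ZMod 2,
      (LinearMap.toMatrix b b (ρT σ)).map PadicInt.toZMod = !![1, t; 0, 1] := by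
    intro σ hσ
    have hu : IsUnit (LinearMap.det (ρT σ)) :=
      (Group.isUnit σ).map ((LinearMap.det).comp (ρT))
    rw [← LinearMap.det_toMatrix b, Matrix.det_fin_two, h10 σ hσ, mul_zero, sub_zero] at hu
    have h2 : ∀ a c : ZMod 2, a * c ≠ 0 → a = 1 ∧ c = 1 := by decide
    obtain ⟨ha, hc⟩ := h2 (PadicInt.toZMod (LinearMap.toMatrix b b (ρT σ) 0 0))
      (PadicInt.toZMod (LinearMap.toMatrix b b (ρT σ) 1 1)) (by
      rw [← map_mul]; exact (hu.map (PadicInt.toZMod (p := 2))).ne_zero)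
    refine ⟨PadicInt.toZMod (LinearMap.toMatrix b b (ρT σ) 0 1), ?_⟩
    ext i k
    fin_cases i <;> fin_cases k <;> simp [ha, hc, h10 σ hσ]
  obtain ⟨F₀, hF₀⟩ := Galois.exists_isFrobeniusAt A hq hA
  have hsres : (LinearMap.toMatrix b b (ρT s)).map PadicInt.toZMod = !![1, 1; 0, 1] := by
    obtain ⟨t, ht⟩ := hres s (EC.Mult.mem_decompositionSubgroup_of_mem_inertia hs)
    have h01 := congrFun (congrFun ht 0) 1
    rw [hsmat] at h01
    simp at h01
    have h2 : ∀ a : ZMod 2, a ≠ 0 → a = 1 := by decide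
    rw [ht, ← h01, h2 _ (hy.map (PadicInt.toZMod (p := 2))).ne_zero]
  obtain ⟨F, hF, hFres⟩ : ∃ F, A.IsFrobeniusAt F q ∧
      (LinearMap.toMatrix b b (ρT F)).map PadicInt.toZMod = !![1, 1; 0, 1] := by
    obtain ⟨t, ht⟩ := hres F₀ hF₀.mem_decompositionSubgroup
    have h2 : ∀ a : ZMod 2, a = 0 ∨ a = 1 := by decide
    rcases h2 t with rfl | rfl
    · refine ⟨F₀ * s, isFrobeniusAt_mul_inertia hF₀ hs, ?_⟩
      rw [map_mul, LinearMap.toMatrix_mul, Matrix.map_mul, ht, hsres]
      ext i k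
      fin_cases i <;> fin_cases k <;> simp [Matrix.mul_apply, Fin.sum_univ_two]
    · exact ⟨F₀, hF₀, ht⟩
  refine ⟨F, hF, b, _, ?_, h10, h11, rfl, hFres, hres⟩
  obtain ⟨z, hzz, hzv⟩ := hz F hF.mem_decompositionSubgroup
  have h := (mem_span_first_iff b _).1 (hzv (b 1))
  rw [map_sub, Finsupp.sub_apply, sub_eq_zero, map_smul, Finsupp.smul_apply] at h
  rw [LinearMap.toMatrix_apply, h]
  simpa using hzz

/-- The signed line at a bad prime on every base change of the Tate module. -/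
theorem exists_hasSignedLineAt_bad {q : ℕ} (hq : q.Prime) (hΔ : W.Δ ≠ 0)
    (hbad : (q : ℤ) ∣ W.Δ) (hc4 : ¬ (q : ℤ) ∣ W.c₄) (hv : Odd (padicValInt q W.Δ))
    (A : ValuationSubring Qb) (hA : A.LiesOverPrime q) :
    ∃ (F : Γℚ) (u : ℤ_[2]), A.IsFrobeniusAt F q ∧ u * u = 1 ∧
      (∃ P : ((W.map (Int.castRingHom ℚ))⁄Qb).Point, 2 • P = 0 ∧ F • P ≠ P) ∧
      HasSignedLineAt (EC.tateRep (W.map (Int.castRingHom ℚ)) 2) A F u ∧
      ∀ (B : Type) [CommRing B] [IsLocalRing B] (f : ℤ_[2] →+* B) (hf : IsLocalHom f),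
        HasSignedLineAt ((EC.tateRep (W.map (Int.castRingHom ℚ)) 2).baseChangeAlong f hf) A F
          (f u) := by
  obtain ⟨F, hF, b, u, huu, h10, h11, hFu, hres, -⟩ :=
    exists_frobenius_line_bad hq hΔ hbad hc4 hv A hA
  have hID : A.inertiaSubgroupIn ℚ ≤ A.decompositionSubgroup ℚ :=
    fun σ hσ => EC.Mult.mem_decompositionSubgroup_of_mem_inertia hσ
  refine ⟨F, u, hF, huu, ?_, hasSignedLineAt_of_matrix _ b h10 hID h11
    hF.mem_decompositionSubgroup hFu, fun B _ _ f hf => hasSignedLineAt_baseChangeAlong _ f hf b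
    (fun σ hσ => by rw [h10 σ hσ, map_zero]) hID (fun σ hσ => by rw [h11 σ hσ, map_one])
    hF.mem_decompositionSubgroup (by rw [hFu])⟩
  let π := EC.tateProjOne (W.map (Int.castRingHom ℚ)) 2
  refine ⟨(π (b 1)).1, by rw [← natCast_zsmul]; exact (π (b 1)).2, fun h => ?_⟩
  have h' : F • π (b 1) = π (b 1) := Subtype.ext h
  rw [← EC.tateProjOne_ρ] at h'
  have hFb : π (ρT F (b 1)) = π (b 0) + π (b 1) := by
    conv_lhs => rw [← b.sum_repr (ρT F (b 1))]
    rw [Fin.sum_univ_two, map_add, EC.tateProjOne_smul, EC.tateProjOne_smul]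
    have e0 := congrFun (congrFun hres 0) 1
    have e1 := congrFun (congrFun hres 1) 1
    simp [LinearMap.toMatrix_apply] at e0 e1
    rw [e0, e1, one_smul, one_smul]
  rw [hFb, add_eq_right] at h'
  obtain ⟨bn, hbn⟩ := EC.exists_levelBasis (W.map (Int.castRingHom ℚ)) 2 b 1
  have : Fact (1 < 2 ^ 1) := ⟨by norm_num⟩
  refine bn.ne_zero 0 ?_
  rw [hbn]
  exact (EC.torsionPowOneEquiv (W.map (Int.castRingHom ℚ)) 2).map_eq_zero_iff.1 h'

end Fermat.Agent.TwoAdic
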