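import Fermat.Agent.TwoAdic.Contracts.Props
import Fermat.Agent.TwoAdic.Switch.Galois.Lines
import Fermat.Agent.EC.Red.Qbar

/-!
# The residual representation of the switched curve

`V[2]` is absolutely irreducible, and there are places with Frobenius elements acting residually
as transvections at the bad and the auxiliary primes.
-/

set_option autoImplicit false

noncomputable section

open Matrix WeierstrassCurve IsLocalRing
open scoped WeierstrassCurve.Affine TensorProduct

namespace Fermat.Agent.TwoAdic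

local notation "Qb" => AlgebraicClosure ℚ
local notation "Γℚ" => (AlgebraicClosure ℚ ≃ₐ[ℚ] AlgebraicClosure ℚ)

theorem IsTresModel.exists_odd_bad {V : WeierstrassCurve ℤ} (hV : IsTresModel V) :
    ∃ q : ℕ, q.Prime ∧ q ≠ 2 ∧ (q : ℤ) ∣ V.Δ ∧ ¬ (q : ℤ) ∣ V.c₄ ∧ Odd (padicValInt q V.Δ) := by
  obtain ⟨q, hq, h5, hd⟩ := hV.exists_five_le
  exact ⟨q, hq, by omega, hd, hV.semistable q hq hd, hV.odd_val q hq hd⟩

theorem mem_badPrimes_iff {V : WeierstrassCurve ℤ} (hΔ : V.Δ ≠ 0) {q : ℕ} :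
    q ∈ badPrimes V ↔ q.Prime ∧ (q : ℤ) ∣ V.Δ := by
  rw [badPrimes, Nat.mem_primeFactors, Int.natCast_dvd, and_congr_right_iff]
  intro _
  simp [hΔ]

variable {V : WeierstrassCurve ℤ} [(V.map (Int.castRingHom ℚ)).IsElliptic]

local notation "ρT" => GaloisRepAdic.ρ (EC.tateRep (V.map (Int.castRingHom ℚ)) 2)
local notation "ρbar" => GaloisRepAdic.residual (EC.tateRep (V.map (Int.castRingHom ℚ)) 2)

/-- The basis of the residual representation induced by a basis of the Tate module. -/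
def residualBasis (b : Module.Basis (Fin 2) ℤ_[2] (EC.tateRep (V.map (Int.castRingHom ℚ)) 2).V) :
    Module.Basis (Fin 2) (ResidueField ℤ_[2]) (ρbar).V :=
  Algebra.TensorProduct.basis (ResidueField ℤ_[2]) b

theorem toMatrix_residual
    (b : Module.Basis (Fin 2) ℤ_[2] (EC.tateRep (V.map (Int.castRingHom ℚ)) 2).V) (σ : Γℚ) :
    LinearMap.toMatrix (residualBasis b) (residualBasis b) ((ρbar).ρ σ) =
      (LinearMap.toMatrix b b (ρT σ)).map (residue ℤ_[2]) :=
  LinearMap.toMatrix_baseChange (A := ResidueField ℤ_[2]) (ρT σ) b b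

theorem residue_eq_residue_iff (x y : ℤ_[2]) :
    residue ℤ_[2] x = residue ℤ_[2] y ↔ PadicInt.toZMod x = PadicInt.toZMod y := by
  rw [← sub_eq_zero, ← map_sub, residue_eq_zero_iff, ← PadicInt.ker_toZMod, RingHom.mem_ker,
    map_sub, sub_eq_zero]

/-- Residual equalities are equalities of matrices modulo `2`. -/
theorem residual_ρ_eq_iff
    (b : Module.Basis (Fin 2) ℤ_[2] (EC.tateRep (V.map (Int.castRingHom ℚ)) 2).V) (σ τ : Γℚ) :
    (ρbar).ρ σ = (ρbar).ρ τ ↔
      (LinearMap.toMatrix b b (ρT σ)).map PadicInt.toZMod =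
        (LinearMap.toMatrix b b (ρT τ)).map PadicInt.toZMod := by
  rw [← (LinearMap.toMatrix (residualBasis b) (residualBasis b)).injective.eq_iff,
    toMatrix_residual, toMatrix_residual, ← Matrix.ext_iff, ← Matrix.ext_iff]
  simp only [Matrix.map_apply, residue_eq_residue_iff]

/-- Equality at a level `n ≥ 1` gives residual equality. -/
theorem residual_ρ_eq_of_levelHom_eq
    (b : Module.Basis (Fin 2) ℤ_[2] (EC.tateRep (V.map (Int.castRingHom ℚ)) 2).V) {n : ℕ}
    (hn : n ≠ 0) {σ τ : Γℚ} (h : levelHom b n σ = levelHom b n τ) :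
    (ρbar).ρ σ = (ρbar).ρ τ := by
  rw [residual_ρ_eq_iff b, ← redMat_levelHom b hn, ← redMat_levelHom b hn, h]

/-- Equal actions on `E[2ⁿ]` give equal matrices at level `n`. -/
theorem levelHom_eq_of_galoisRepModuleEnd_eq
    (b : Module.Basis (Fin 2) ℤ_[2] (EC.tateRep (V.map (Int.castRingHom ℚ)) 2).V) {n : ℕ}
    {σ τ : Γℚ}
    (h : Affine.Point.galoisRepModuleEnd (K := Qb) ℚ (V.map (Int.castRingHom ℚ)) (2 ^ n) σ =
      Affine.Point.galoisRepModuleEnd (K := Qb) ℚ (V.map (Int.castRingHom ℚ)) (2 ^ n) τ) :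
    levelHom b n σ = levelHom b n τ := by
  obtain ⟨bn, hbn⟩ := EC.exists_levelBasis (V.map (Int.castRingHom ℚ)) 2 b n
  refine Units.ext ?_
  rw [coe_levelHom, coe_levelHom, ← EC.toMatrix_galoisRepModuleEnd _ 2 b bn hbn σ,
    ← EC.toMatrix_galoisRepModuleEnd _ 2 b bn hbn τ, h]

/-- At a good odd prime inertia is trivial at every level. -/
theorem levelHom_eq_one_of_good
    (b : Module.Basis (Fin 2) ℤ_[2] (EC.tateRep (V.map (Int.castRingHom ℚ)) 2).V) (n : ℕ)
    {q : ℕ} (hq : q.Prime) (hq2 : q ≠ 2) (hgood : V.IsGoodPrimeFor q)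
    {A : ValuationSubring Qb} (hA : A.LiesOverPrime q) {σ : Γℚ}
    (hσ : σ ∈ A.inertiaSubgroupIn ℚ) : levelHom b n σ = 1 := by
  rw [← map_one (levelHom b n)]
  refine levelHom_eq_of_galoisRepModuleEnd_eq b (LinearMap.ext fun P => ?_)
  rw [map_one]
  exact EC.galoisRepUnramifiedAt_of_isGoodPrimeFor V hq hgood
    (fun h => hq2 ((Nat.prime_dvd_prime_iff_eq hq Nat.prime_two).1 (hq.dvd_of_dvd_pow h))) A hA σ
    hσ P

/-- Frobenius at a bad prime: residually a transvection commuting with the decomposition group. -/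
theorem exists_frobenius_residual_bad {q : ℕ} (hq : q.Prime) (hΔ : V.Δ ≠ 0)
    (hbad : (q : ℤ) ∣ V.Δ) (hc4 : ¬ (q : ℤ) ∣ V.c₄) (hv : Odd (padicValInt q V.Δ))
    (A : ValuationSubring Qb) (hA : A.LiesOverPrime q) :
    ∃ F : Γℚ, A.IsFrobeniusAt F q ∧ (ρbar).ρ F ≠ 1 ∧ (ρbar).ρ F * (ρbar).ρ F = 1 ∧
      ∀ σ ∈ A.decompositionSubgroup ℚ, Commute ((ρbar).ρ σ) ((ρbar).ρ F) := by
  obtain ⟨F, hF, b, u, -, -, -, -, hres, hall⟩ :=
    exists_frobenius_line_bad hq hΔ hbad hc4 hv A hA
  have hone : (LinearMap.toMatrix b b (ρT 1)).map PadicInt.toZMod = 1 := by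
    rw [map_one, LinearMap.toMatrix_one, Matrix.map_one _ (map_zero _) (map_one _)]
  refine ⟨F, hF, fun h => ?_, ?_, fun σ hσ => ?_⟩
  · rw [← map_one (ρbar).ρ, residual_ρ_eq_iff b, hone, hres] at h
    simpa using congrFun (congrFun h 0) 1
  · rw [← map_mul, ← map_one (ρbar).ρ, residual_ρ_eq_iff b, hone, map_mul, LinearMap.toMatrix_mul,
      Matrix.map_mul, hres]
    decide
  · obtain ⟨t, ht⟩ := hall σ hσ
    show _ * _ = _ * _
    rw [← map_mul, ← map_mul, residual_ρ_eq_iff b]
    simp only [map_mul, LinearMap.toMatrix_mul, Matrix.map_mul, ht, hres]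
    clear ht
    revert t
    decide

/-- Frobenius at an auxiliary prime: residually a transvection commuting with the decomposition
group. -/
theorem frobenius_residual_aux (hΔ : V.Δ < 0) {n q : ℕ} (hn : n ≠ 0) (hq : IsAuxPrime V n q)
    {A : ValuationSubring Qb} (hA : A.LiesOverPrime q) {F : Γℚ} (hF : A.IsFrobeniusAt F q) :
    (ρbar).ρ F ≠ 1 ∧ (ρbar).ρ F * (ρbar).ρ F = 1 ∧
      ∀ σ ∈ A.decompositionSubgroup ℚ, Commute ((ρbar).ρ σ) ((ρbar).ρ F) := by
  let b := EC.tateRepBasis (V.map (Int.castRingHom ℚ)) 2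
  obtain ⟨g, hg⟩ := hq.frob A hA F hF
  have hF' : (ρbar).ρ F = (ρbar).ρ (g * complexConjugation * g⁻¹) :=
    residual_ρ_eq_of_levelHom_eq b hn (levelHom_eq_of_galoisRepModuleEnd_eq b hg)
  refine ⟨fun h => ?_, ?_, fun σ hσ => ?_⟩
  · have hc : (ρbar).ρ complexConjugation = (ρbar).ρ 1 := by
      rw [hF'] at h
      rw [show complexConjugation = g⁻¹ * (g * complexConjugation * g⁻¹) * g by group, map_mul,
        map_mul, h, mul_one, ← map_mul, inv_mul_cancel]
    rw [residual_ρ_eq_iff b] at hc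
    refine toMatrix_complexConjugation_map_ne_one hΔ b ?_
    rw [hc, map_one, LinearMap.toMatrix_one, Matrix.map_one _ (map_zero _) (map_one _)]
  · rw [hF', ← map_mul, show g * complexConjugation * g⁻¹ * (g * complexConjugation * g⁻¹) =
      g * (complexConjugation * complexConjugation) * g⁻¹ by group, complexConjugation_mul_self,
      mul_one, mul_inv_cancel, map_one]
  · obtain ⟨s, hs, i, hi⟩ := RT.exists_inertia_mul_frobenius_pow (levelHom b n)
      (levelHom_finite_level b n) hq.prime hA hF hσ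
    rw [levelHom_eq_one_of_good b n hq.prime hq.odd hq.good hA hs, mul_one, ← map_pow] at hi
    rw [residual_ρ_eq_of_levelHom_eq b hn hi, map_pow]
    exact (Commute.refl _).pow_left i

omit [(V.map (Int.castRingHom ℚ)).IsElliptic] in
/-- **Places and residual transvections.** -/
theorem placesExist : PlacesExist := by
  intro V hV n Q hn hQ
  have := EC.isElliptic_map_rat hV.delta_ne_zero
  have hprime : ∀ v : signSet V Q, (v : ℕ).Prime := fun v => by
    rcases Finset.mem_union.mp v.2 with h | h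
    · exact Nat.prime_of_mem_primeFactors h
    · exact (hQ.aux _ h).prime
  choose P hP using fun v : signSet V Q =>
    Galois.exists_valuationSubring_liesOverPrime (L := Qb) (hprime v)
  have key : ∀ v : signSet V Q, ∃ F : Γℚ, (P v).IsFrobeniusAt F (v : ℕ) ∧
      (residualTwo V hV.delta_ne_zero).ρ F ≠ 1 ∧
      (residualTwo V hV.delta_ne_zero).ρ F * (residualTwo V hV.delta_ne_zero).ρ F = 1 ∧
      ∀ σ ∈ (P v).decompositionSubgroup ℚ,
        Commute ((residualTwo V hV.delta_ne_zero).ρ σ) ((residualTwo V hV.delta_ne_zero).ρ F) := by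
    intro v
    rcases Finset.mem_union.mp v.2 with h | h
    · obtain ⟨hq, hd⟩ := (mem_badPrimes_iff hV.delta_ne_zero).mp h
      exact exists_frobenius_residual_bad hq hV.delta_ne_zero hd (hV.semistable _ hq hd)
        (hV.odd_val _ hq hd) (P v) (hP v)
    · obtain ⟨F, hF⟩ := Galois.exists_isFrobeniusAt (P v) (hprime v) (hP v)
      exact ⟨F, hF, frobenius_residual_aux hV.delta_neg (by omega) (hQ.aux _ h) (hP v) hF⟩
  choose F hF hne hsq hcomm using key
  refine ⟨⟨P, F⟩, fun v => ⟨hP v, hF v⟩, ⟨fun q hq hqS A hA σ hσ => ?_,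
    fun v => (hF v).mem_decompositionSubgroup, hne, hsq, hcomm⟩⟩
  have hgood : V.IsGoodPrimeFor q := fun hd =>
    hqS (Finset.mem_union_left _ ((mem_badPrimes_iff hV.delta_ne_zero).mpr ⟨hq, hd⟩))
  have hq2 : q ≠ 2 := fun h => hgood (h ▸ hV.two_dvd)
  show ((EC.tateRep (V.map (Int.castRingHom ℚ)) 2).ρ σ).baseChange _ = 1
  rw [EC.tateRep_isUnramifiedAt hV.delta_ne_zero 2 hq hgood hq2 A hA σ hσ,
    LinearMap.baseChange_one]

/-- A space with operators `!![1,1;0,1]` and `!![0,1;1,0]` has no proper stable subspace. -/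
theorem eq_bot_or_top_of_transvection_swap {K M : Type*} [Field K] [AddCommGroup M] [Module K M]
    (e : Module.Basis (Fin 2) K M) {T S : Module.End K M} (hT0 : T (e 0) = e 0)
    (hT1 : T (e 1) = e 0 + e 1) (hS : S (e 0) = e 1) (N : Submodule K M)
    (hNT : ∀ x ∈ N, T x ∈ N) (hNS : ∀ x ∈ N, S x ∈ N) : N = ⊥ ∨ N = ⊤ := by
  by_cases hN : N = ⊥
  · exact Or.inl hN
  refine Or.inr ?_
  obtain ⟨x, hx, hx0⟩ := Submodule.exists_mem_ne_zero_of_ne_bot hN
  have hxe : x = e.repr x 0 • e 0 + e.repr x 1 • e 1 := by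
    conv_lhs => rw [← e.sum_repr x, Fin.sum_univ_two]
  have he0 : e 0 ∈ N := by
    by_cases h1 : e.repr x 1 = 0
    · rw [h1, zero_smul, add_zero] at hxe
      have h0 : e.repr x 0 ≠ 0 := fun h => hx0 (by rw [hxe, h, zero_smul])
      rw [hxe] at hx
      exact (Submodule.smul_mem_iff _ h0).1 hx
    · have h := N.sub_mem (hNT x hx) hx
      rw [hxe, map_add, map_smul, map_smul, hT0, hT1, smul_add, add_sub_add_left_eq_sub,
        add_sub_cancel_right] at h
      exact (Submodule.smul_mem_iff _ h1).1 h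
  have he1 : e 1 ∈ N := hS ▸ hNS _ he0
  rw [eq_top_iff, ← e.span_eq, Submodule.span_le]
  rintro _ ⟨i, rfl⟩
  fin_cases i
  · exact he0
  · exact he1

omit [(V.map (Int.castRingHom ℚ)).IsElliptic] in
/-- **`V[2]` is absolutely irreducible.** -/
theorem residualIrreducible : ResidualIrreducible := by
  intro V hV
  have := EC.isElliptic_map_rat hV.delta_ne_zero
  obtain ⟨q, hq, hq2, hd, hc4, hv⟩ := hV.exists_odd_bad
  let b := EC.tateRepBasis (V.map (Int.castRingHom ℚ)) 2
  let k := ResidueField ℤ_[2]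
  have hlift : ∀ M : Matrix (Fin 2) (Fin 2) (ZMod (2 ^ 1)), M.det = 1 → ∃ σ : Γℚ,
      (LinearMap.toMatrix b b ((EC.tateRep (V.map (Int.castRingHom ℚ)) 2).ρ σ)).map PadicInt.toZMod =
        M.map (redHom one_ne_zero) := by
    intro M hM
    obtain ⟨σ, hσ⟩ := exists_levelHom_eq_of_det_eq_one hV.delta_ne_zero hq hq2 hd hc4 hv
      hV.no_two_torsion b 1 (mkSL M hM) (by rw [coe_mkSL, hM])
    exact ⟨σ, by rw [← redMat_levelHom b one_ne_zero, hσ, coe_redGL, coe_mkSL]⟩
  obtain ⟨σT, hσT⟩ := hlift !![1, 1; 0, 1] (upper_det 1)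
  obtain ⟨σS, hσS⟩ := hlift !![0, -1; 1, 0] S_det
  let K := AlgebraicClosure k
  let e : Module.Basis (Fin 2) K ((residualTwo V hV.delta_ne_zero).baseChange K).V :=
    Algebra.TensorProduct.basis K (residualBasis b)
  have hmat : ∀ (σ : Γℚ) (M : Matrix (Fin 2) (Fin 2) ℕ),
      (LinearMap.toMatrix b b ((EC.tateRep (V.map (Int.castRingHom ℚ)) 2).ρ σ)).map
        PadicInt.toZMod = M.map Nat.cast →
      ∀ j, ((residualTwo V hV.delta_ne_zero).baseChange K).ρ σ (e j) =
        (M 0 j : K) • e 0 + (M 1 j : K) • e 1 := by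
    intro σ M hM j
    have h : LinearMap.toMatrix e e (((residualTwo V hV.delta_ne_zero).baseChange K).ρ σ) =
        M.map Nat.cast := by
      refine (LinearMap.toMatrix_baseChange (A := K) ((residualTwo V hV.delta_ne_zero).ρ σ)
        (residualBasis b) (residualBasis b)).trans ?_
      refine (congrArg (fun X : Matrix (Fin 2) (Fin 2) k => X.map (algebraMap k K))
        (toMatrix_residual b σ)).trans ?_
      rw [Matrix.map_map]
      ext i l
      have h1 := congrFun (congrFun hM i) l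
      rw [Matrix.map_apply, Matrix.map_apply, ← map_natCast (PadicInt.toZMod (p := 2)),
        ← residue_eq_residue_iff] at h1
      rw [Matrix.map_apply, Function.comp_apply, h1, map_natCast, map_natCast, Matrix.map_apply]
    conv_lhs => rw [← e.sum_repr (((residualTwo V hV.delta_ne_zero).baseChange K).ρ σ (e j)),
      Fin.sum_univ_two, ← LinearMap.toMatrix_apply e e, ← LinearMap.toMatrix_apply e e, h]
    rfl
  have hT := hmat σT !![1, 1; 0, 1]
    (hσT.trans (by ext i l; fin_cases i <;> fin_cases l <;> simp))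
  have hS := hmat σS !![0, 1; 1, 0]
    (hσS.trans (by ext i l; fin_cases i <;> fin_cases l <;> simp))
  intro N hN
  exact eq_bot_or_top_of_transvection_swap e
    (by simpa using hT 0) (by simpa using hT 1) (by simpa using hS 0) N (hN σT) (hN σS)

end Fermat.Agent.TwoAdic
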