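import Fermat.Agent.TwoAdic.Contracts.Defs
import Fermat.Agent.EichlerShimura.DetArgument

/-!
# Auxiliary primes are `-1` modulo `2ⁿ`

Determinants of Frobenius and of complex conjugation on `V[2ⁿ]`.
-/

set_option autoImplicit false

noncomputable section

open WeierstrassCurve
open scoped WeierstrassCurve.Affine

namespace Fermat.Agent.TwoAdic

/-- `q ≡ -1 (mod 2ⁿ)` at an auxiliary prime. -/
theorem IsAuxPrime.natCast_eq_neg_one {V : WeierstrassCurve ℤ} {n q : ℕ} (hq : IsAuxPrime V n q)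
    (hΔ : V.Δ ≠ 0) : (q : ZMod (2 ^ n)) = -1 := by
  rcases eq_or_ne n 0 with rfl | hn
  · have : Subsingleton (ZMod (2 ^ 0)) := by rw [pow_zero]; infer_instance
    exact Subsingleton.elim _ _
  have : NeZero (2 ^ n) := ⟨pow_ne_zero n two_ne_zero⟩
  obtain ⟨A, σ, hA, hσ⟩ := Galois.exists_valuationSubring_isFrobeniusAt hq.prime
  obtain ⟨g, hg⟩ := hq.frob A hA σ hσ
  have h1 : 1 < 2 ^ n := Nat.one_lt_two_pow hn
  have hd := congrArg (fun f => LinearMap.det f) hg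
  rw [EC.det_galoisRepModuleEnd_eq_cycloChar_of_one_lt hΔ (2 ^ n) h1 σ,
    EC.det_galoisRepModuleEnd_eq_cycloChar_of_one_lt hΔ (2 ^ n) h1] at hd
  rw [EC.cycloChar_eq_of_isFrobeniusAt hq.prime
    (fun h => hq.odd ((Nat.prime_dvd_prime_iff_eq hq.prime Nat.prime_two).1
      (hq.prime.dvd_of_dvd_pow h))) hA hσ] at hd
  rw [map_mul, map_mul, map_inv, mul_right_comm, mul_inv_cancel, one_mul,
    EichlerShimura.cycloChar_complexConjugation] at hd
  exact hd

/-- `2ⁿ ∣ q + 1` at an auxiliary prime. -/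
theorem IsAuxPrime.pow_dvd_succ {V : WeierstrassCurve ℤ} {n q : ℕ} (hq : IsAuxPrime V n q)
    (hΔ : V.Δ ≠ 0) : 2 ^ n ∣ q + 1 := by
  rw [← ZMod.natCast_eq_zero_iff]
  push_cast
  rw [hq.natCast_eq_neg_one hΔ, neg_add_cancel]

end Fermat.Agent.TwoAdic
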