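import Fermat.Agent.EC.Torsion.Rat
import Fermat.Agent.EC.Mult.Ramification
import Fermat.Agent.EC.DivPoly.MulFormula
import Fermat.Prelude.Def_GaloisRep_ComplexConjugation
import Mathlib.Algebra.CubicDiscriminant
import Mathlib.FieldTheory.Galois.Infinite

/-!
# The `2`-torsion field and the square root of the discriminant

For an integral model `W` with non-zero discriminant: an automorphism of `ℚ̄` fixing `E[2]`
pointwise fixes `√Δ`; so complex conjugation (if `Δ < 0`) and some inertia element (if `ord_q Δ`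
is odd) act non-trivially on `E[2]`; a `2`-torsion point fixed by all of Galois comes from a
rational root of the `2`-division cubic.
-/

set_option autoImplicit false

noncomputable section

open WeierstrassCurve
open scoped WeierstrassCurve.Affine

namespace Fermat.Agent.TwoAdic

local notation "Qb" => AlgebraicClosure ℚ

local instance isAlgebraicQbar_twoTorsion : Algebra.IsAlgebraic ℚ Qb := AlgebraicClosure.isAlgebraic ℚ

local instance isAlgClosureQbar_twoTorsion : IsAlgClosure ℚ Qb := ⟨inferInstance, inferInstance⟩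

variable (W : WeierstrassCurve ℤ)

set_option quotPrecheck false in
local notation "EQ" => (W.map (Int.castRingHom ℚ))⁄Qb

lemma baseChange_qbar_eq : EQ = W.map (Int.castRingHom Qb) := by
  show (W.map (Int.castRingHom ℚ)).map (algebraMap ℚ Qb) = _
  rw [WeierstrassCurve.map_map]
  exact congrArg W.map (RingHom.ext_int _ _)

lemma isElliptic_qbar (hΔ : W.Δ ≠ 0) : (W.map (Int.castRingHom Qb)).IsElliptic :=
  ⟨isUnit_iff_ne_zero.2 (by rw [map_Δ, eq_intCast]; exact_mod_cast hΔ)⟩

variable {W}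

/-- A root of the `2`-division cubic is the abscissa of a point of order two. -/
theorem exists_two_nsmul_eq_zero_of_root (hΔ : W.Δ ≠ 0) {e : Qb}
    (he : 4 * e ^ 3 + (W.b₂ : Qb) * e ^ 2 + 2 * (W.b₄ : Qb) * e + (W.b₆ : Qb) = 0) :
    ∃ (y : Qb) (h : (EQ).toAffine.Nonsingular e y),
      2 • Affine.Point.some e y h = (0 : (EQ).Point) := by
  have hb2 : ((EQ).b₂ : Qb) = (W.b₂ : Qb) := by rw [baseChange_qbar_eq, map_b₂]; rfl
  have hb4 : ((EQ).b₄ : Qb) = (W.b₄ : Qb) := by rw [baseChange_qbar_eq, map_b₄]; rfl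
  have hb6 : ((EQ).b₆ : Qb) = (W.b₆ : Qb) := by rw [baseChange_qbar_eq, map_b₆]; rfl
  have hell : (EQ).toAffine.IsElliptic := by
    show (EQ).IsElliptic
    rw [baseChange_qbar_eq]; exact isElliptic_qbar W hΔ
  rw [← hb2, ← hb4, ← hb6] at he
  set a₁ := (EQ).a₁
  set a₃ := (EQ).a₃
  refine ⟨-(a₁ * e + a₃) / 2, Affine.equation_iff_nonsingular.1 ((Affine.equation_iff _ _).2 ?_),
    ?_⟩
  · simp only [WeierstrassCurve.b₂, WeierstrassCurve.b₄, WeierstrassCurve.b₆] at he
    show (-(a₁ * e + a₃) / 2) ^ 2 + a₁ * e * (-(a₁ * e + a₃) / 2) + a₃ * (-(a₁ * e + a₃) / 2) = _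
    linear_combination (-1 / 4 : Qb) * he
  · rw [two_nsmul]
    refine Affine.Point.add_of_Y_eq rfl ?_
    show -(a₁ * e + a₃) / 2 = -(-(a₁ * e + a₃) / 2) - a₁ * e - a₃
    ring

/-- An automorphism fixing `E[2]` pointwise fixes the square roots of `Δ`. -/
theorem apply_eq_self_of_forall_two_torsion (hΔ : W.Δ ≠ 0) (σ : Qb ≃ₐ[ℚ] Qb)
    (hfix : ∀ P : (EQ).Point, 2 • P = 0 → σ • P = P) {s : Qb} (hs : s ^ 2 = (W.Δ : Qb)) :
    σ s = s := by
  have hroot : ∀ e : Qb,
      4 * e ^ 3 + (W.b₂ : Qb) * e ^ 2 + 2 * (W.b₄ : Qb) * e + (W.b₆ : Qb) = 0 → σ e = e := by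
    intro e he
    obtain ⟨y, h, h2⟩ := exists_two_nsmul_eq_zero_of_root hΔ he
    have h1 := hfix _ h2
    injection h1
  let P : Cubic Qb := (W.map (Int.castRingHom Qb)).twoTorsionPolynomial
  have ha : P.a ≠ 0 := by simp [P, twoTorsionPolynomial]
  obtain ⟨x, y, z, h3⟩ := (Cubic.splits_iff_roots_eq_three (φ := RingHom.id Qb) ha).1
    (IsAlgClosed.splits _)
  have hmem : ∀ e ∈ ({x, y, z} : Multiset Qb), σ e = e := by
    intro e he
    refine hroot e ?_
    rw [← h3, show Cubic.map (RingHom.id Qb) P = P from rfl,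
      Cubic.mem_roots_iff (Cubic.ne_zero_of_a_ne_zero ha)] at he
    simpa [P, twoTorsionPolynomial] using he
  have hd := Cubic.discr_eq_prod_three_roots (φ := RingHom.id Qb) ha h3
  rw [twoTorsionPolynomial_discr] at hd
  simp only [RingHom.id_apply, P, twoTorsionPolynomial, map_Δ, eq_intCast] at hd
  set t := (4 : Qb) * 4 * (x - y) * (x - z) * (y - z) with ht
  have hσt : σ t = t := by
    simp only [t, map_mul, map_sub, map_ofNat, hmem x (by simp), hmem y (by simp), hmem z (by simp)]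
  have h4 : (4 * s) ^ 2 = t ^ 2 := by linear_combination (16 : Qb) * hs + hd
  rcases sq_eq_sq_iff_eq_or_eq_neg.1 h4 with h | h
  · have := congrArg σ h
    rw [map_mul, map_ofNat, hσt, ← h] at this
    exact mul_left_cancel₀ (by norm_num) this
  · have := congrArg σ h
    rw [map_mul, map_ofNat, map_neg, hσt, ← h] at this
    exact mul_left_cancel₀ (by norm_num) this

/-- Complex conjugation moves a `2`-torsion point when `Δ < 0`. -/
theorem exists_two_torsion_complexConjugation_ne (hΔ : W.Δ < 0) :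
    ∃ P : (EQ).Point, 2 • P = 0 ∧ complexConjugation • P ≠ P := by
  by_contra! hcon
  obtain ⟨s, hs⟩ := IsAlgClosed.exists_pow_nat_eq ((W.Δ : Qb)) (n := 2) (by norm_num)
  have h := congrArg complexEmbedding (apply_eq_self_of_forall_two_torsion hΔ.ne _ hcon hs)
  rw [complexEmbedding_complexConjugation] at h
  obtain ⟨r, hr⟩ := Complex.conj_eq_iff_real.1 h
  have h2 : (complexEmbedding s) ^ 2 = (W.Δ : ℂ) := by rw [← map_pow, hs, map_intCast]
  rw [hr, ← Complex.ofReal_pow] at h2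
  have h3 := congrArg Complex.re h2
  simp only [Complex.ofReal_re, Complex.intCast_re] at h3
  have : (W.Δ : ℝ) < 0 := by exact_mod_cast hΔ
  nlinarith [sq_nonneg r]

/-- If `ord_q Δ` is odd, some inertia element at `q` moves a `2`-torsion point. -/
theorem exists_two_torsion_inertia_ne (hΔ : W.Δ ≠ 0) {q : ℕ} (hq : q.Prime)
    {A : ValuationSubring Qb} (hA : A.LiesOverPrime q) (hv : Odd (padicValInt q W.Δ)) :
    ∃ σ ∈ A.inertiaSubgroupIn ℚ, ∃ P : (EQ).Point, 2 • P = 0 ∧ σ • P ≠ P := by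
  by_contra! hcon
  obtain ⟨s, hs⟩ := IsAlgClosed.exists_pow_nat_eq ((W.Δ : Qb)) (n := 2) (by norm_num)
  have hs0 : s ≠ 0 := fun h => hΔ (by exact_mod_cast (show (W.Δ : Qb) = 0 by rw [← hs, h]; simp))
  obtain ⟨k, hk⟩ := EC.Mult.exists_zpow_of_inertia_fixed hq hA hs0
    fun σ hσ => apply_eq_self_of_forall_two_torsion hΔ σ (hcon σ hσ) hs
  have h2 := congrArg (fun x => x ^ 2) hk
  rw [← map_pow, hs, EC.Mult.valuation_intCast hq hA hΔ, ← zpow_natCast, ← zpow_natCast,
    ← zpow_mul] at h2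
  have h := zpow_right_injective₀ (zero_lt_iff.2 (EC.Mult.valuation_natCast_ne_zero hq))
    (EC.Mult.valuation_natCast_lt_one hA).ne h2
  obtain ⟨m, hm⟩ := hv
  omega

/-- Without rational roots of the `2`-division cubic, no non-zero point of `E[2]` is fixed by
Galois. -/
theorem exists_smul_ne_of_two_torsion (hΔ : W.Δ ≠ 0)
    (hroot : ∀ x : ℚ, 4 * x ^ 3 + (W.b₂ : ℚ) * x ^ 2 + 2 * (W.b₄ : ℚ) * x + (W.b₆ : ℚ) ≠ 0)
    {P : (EQ).Point} (hP : 2 • P = 0) (hP0 : P ≠ 0) :
    ∃ σ : Qb ≃ₐ[ℚ] Qb, σ • P ≠ P := by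
  by_contra! hcon
  match P, hP, hP0 with
  | .zero, _, h => exact h rfl
  | .some x y h, hP, _ =>
    have : IsGalois ℚ Qb := IsAlgClosure.isGalois ℚ Qb
    have hfix : x ∈ (⊥ : IntermediateField ℚ Qb) := by
      rw [IntermediateField.mem_bot]
      refine (InfiniteGalois.mem_range_algebraMap_iff_fixed x).2 fun σ => ?_
      have h1 := hcon σ
      injection h1
    obtain ⟨r, rfl⟩ := IntermediateField.mem_bot.1 hfix
    refine hroot r ((algebraMap ℚ Qb).injective ?_)
    have hneg : y = (EQ).toAffine.negY (algebraMap ℚ Qb r) y := by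
      rw [two_nsmul, add_eq_zero_iff_eq_neg] at hP
      injection hP
    have heq := (Affine.equation_iff _ _).1 h.left
    have hb2 : ((EQ).b₂ : Qb) = (W.b₂ : Qb) := by rw [baseChange_qbar_eq, map_b₂]; rfl
    have hb4 : ((EQ).b₄ : Qb) = (W.b₄ : Qb) := by rw [baseChange_qbar_eq, map_b₄]; rfl
    have hb6 : ((EQ).b₆ : Qb) = (W.b₆ : Qb) := by rw [baseChange_qbar_eq, map_b₆]; rfl
    simp only [map_add, map_mul, map_pow, map_ofNat, map_intCast, map_zero]
    rw [← hb2, ← hb4, ← hb6]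
    simp only [WeierstrassCurve.b₂, WeierstrassCurve.b₄, WeierstrassCurve.b₆]
    rw [Affine.negY] at hneg
    linear_combination (-4 : Qb) * heq + (2 * y + (EQ).a₁ * algebraMap ℚ Qb r + (EQ).a₃) * hneg

end Fermat.Agent.TwoAdic
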