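import Fermat.Agent.TwoAdic.Selmer.TorsionRoots
import Fermat.Agent.TwoAdic.Switch.Galois.Places
import Fermat.Agent.TwoAdic.Universal.Residual
import Fermat.Agent.TwoAdic.Dihedral.Setup
import Mathlib.Algebra.CharP.Basic

/-!
# The dihedral set-up of the switched curve
-/

set_option autoImplicit false

noncomputable section

open Matrix WeierstrassCurve IsLocalRing
open scoped WeierstrassCurve.Affine

namespace Fermat.Agent.TwoAdic

local notation "Qb" => AlgebraicClosure ℚ
local notation "Γℚ" => (AlgebraicClosure ℚ ≃ₐ[ℚ] AlgebraicClosure ℚ)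

namespace Selmer

lemma toSum_rootVec_eq_zero_iff (r i : Fin 3) : toSum (rootVec r) i = 0 ↔ i = r := by
  rw [← sumFun_eq_toSum]
  exact sumFun_rootVec_eq_zero_iff r i

lemma mulVec_rootVec_fin :
    ∀ M : Matrix (Fin 2) (Fin 2) (ZMod 2), (∀ i, M *ᵥ rootVec i = rootVec i) → M = 1 := by
  intro M h
  ext i j
  have h0 := congrFun (h 0) i
  have h1 := congrFun (h 1) i
  fin_cases i <;> fin_cases j <;>
    simp [rootVec, Matrix.mulVec, dotProduct, Fin.sum_univ_two] at h0 h1 <;> simp [h0, h1]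

end Selmer

open Selmer (rootVec vecRoot toSum)

/-- The permutation of compatible roots in terms of the matrices. -/
lemma perm_apply_of_compat {T : Selmer.CubicRoots} {g : Γℚ} {M : Matrix (Fin 2) (Fin 2) (ZMod 2)}
    (hM : ∀ v : V2, toSum (M *ᵥ v) = T.act g (toSum v)) (r : Fin 3) :
    rootVec (T.perm g r) = M *ᵥ rootVec r := by
  have h := congrFun (hM (rootVec r)) (T.perm g r)
  rw [Selmer.CubicRoots.act, Equiv.symm_apply_apply,
    (Selmer.toSum_rootVec_eq_zero_iff r r).2 rfl] at h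
  have hne : M *ᵥ rootVec r ≠ 0 := fun h0 => by
    have h' := hM (rootVec r)
    rw [h0, map_zero] at h'
    obtain ⟨i, hi⟩ : ∃ i, i ≠ r := ⟨r + 1, (show ∀ r : Fin 3, r + 1 ≠ r by decide) r⟩
    refine hi ((Selmer.toSum_rootVec_eq_zero_iff r i).1 ?_)
    have h'' := congrFun h' (T.perm g i)
    rw [Selmer.CubicRoots.act, Equiv.symm_apply_apply] at h''
    exact h''.symm
  rw [← Selmer.rootVec_vecRoot _ hne] at h ⊢
  rw [(Selmer.toSum_rootVec_eq_zero_iff _ _).1 h]

lemma perm_eq_one_iff_of_compat {T : Selmer.CubicRoots} {g : Γℚ}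
    {M : Matrix (Fin 2) (Fin 2) (ZMod 2)}
    (hM : ∀ v : V2, toSum (M *ᵥ v) = T.act g (toSum v)) : T.perm g = 1 ↔ M = 1 := by
  refine ⟨fun h => Selmer.mulVec_rootVec_fin M fun i => ?_, fun h => Equiv.ext fun r => ?_⟩
  · rw [← perm_apply_of_compat hM, h]; rfl
  · have h' := congrArg vecRoot (perm_apply_of_compat hM r)
    rw [h, Matrix.one_mulVec, Selmer.vecRoot_rootVec, Selmer.vecRoot_rootVec] at h'
    exact h'

variable {V : WeierstrassCurve ℤ} [(V.map (Int.castRingHom ℚ)).IsElliptic]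

local notation "ρT" => GaloisRepAdic.ρ (EC.tateRep (V.map (Int.castRingHom ℚ)) 2)
set_option quotPrecheck false in
local notation "BT" => Module.Basis (Fin 2) ℤ_[2] (EC.tateRep (V.map (Int.castRingHom ℚ)) 2).V

/-- Coordinates of the residual representation at the roots. -/
def residualSumEquiv (b : BT) :
    (EC.tateRep (V.map (Int.castRingHom ℚ)) 2).residual.V ≃ₗ[ResidueField ℤ_[2]]
      sumZero (ResidueField ℤ_[2]) :=
  ((residualBasis b).equivFun.trans (LinearEquiv.funCongrLeft _ _ (Equiv.swap 0 1))).trans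
    (sumZeroEquiv (ResidueField ℤ_[2])).symm

/-- Compatible roots give the residual representation. -/
theorem residual_isEquiv_rhoBar (b : BT) (T : Selmer.CubicRoots)
    (hT : ∀ (g : Γℚ) (v : V2),
      toSum ((LinearMap.toMatrix b b (ρT g)).map PadicInt.toZMod *ᵥ v) = T.act g (toSum v)) :
    (EC.tateRep (V.map (Int.castRingHom ℚ)) 2).residual.IsEquiv (rhoBar T) := by
  have : CharP (ResidueField ℤ_[2]) 2 := (CharP.charP_iff_prime_eq_zero Nat.prime_two).2
    (by simpa using two_eq_zero_residueField)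
  let ι : ZMod 2 →+* ResidueField ℤ_[2] := ZMod.castHom (dvd_refl 2) _
  have hι : ∀ z : ℤ_[2], residue ℤ_[2] z = ι (PadicInt.toZMod z) := fun z =>
    (EC.ψ_toZMod 2 ι z).symm
  refine ⟨⟨residualSumEquiv b, fun σ => ?_⟩⟩
  set M := (LinearMap.toMatrix b b (ρT σ)).map PadicInt.toZMod with hMdef
  -- the coordinates of a vector with values in `ZMod 2`
  have hcoord : ∀ (x : (EC.tateRep (V.map (Int.castRingHom ℚ)) 2).residual.V) (v : V2),
      (∀ i, (residualBasis b).repr x i = ι (v i)) →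
      ∀ i, (residualSumEquiv b x : Fin 3 → ResidueField ℤ_[2]) i = ι (toSum v i) := by
    intro x v hx i
    have hxv : (residualBasis b).equivFun x = fun i => ι (v i) := funext hx
    fin_cases i <;>
      simp [residualSumEquiv, sumZeroEquiv, Selmer.toSum, hxv, LinearEquiv.funCongrLeft,
        LinearMap.funLeft, Equiv.swap_apply_def, CharTwo.neg_eq, map_add, add_comm]
  suffices h : (residualSumEquiv b).toLinearMap ∘ₗ (EC.tateRep (V.map (Int.castRingHom ℚ)) 2).residual.ρ σ =
      (rhoBar T).ρ σ ∘ₗ (residualSumEquiv b).toLinearMap from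
    fun x => LinearMap.congr_fun h x
  refine (residualBasis b).ext fun j => Subtype.ext (funext fun i => ?_)
  show (residualSumEquiv b ((EC.tateRep (V.map (Int.castRingHom ℚ)) 2).residual.ρ σ
      (residualBasis b j)) : Fin 3 → ResidueField ℤ_[2]) i =
    (residualSumEquiv b (residualBasis b j) : Fin 3 → ResidueField ℤ_[2]) ((T.perm σ).symm i)
  rw [hcoord _ (M *ᵥ Pi.single j 1) (fun l => ?_) i, hcoord _ (Pi.single j 1) (fun l => ?_), hT]
  · rfl
  · rw [Module.Basis.repr_self, Finsupp.single_apply, Pi.single_apply]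
    rcases eq_or_ne l j with rfl | h
    · simp
    · simp [h, Ne.symm h]
  · rw [← LinearMap.toMatrix_apply (residualBasis b) (residualBasis b), toMatrix_residual,
      Matrix.map_apply, hι, Matrix.mulVec_single_one]
    rfl

omit [(V.map (Int.castRingHom ℚ)).IsElliptic] in
/-- **The dihedral set-up of a switched curve.** -/
theorem exists_dihedralSetup (hV : IsTresModel V) :
    ∃ T : Selmer.CubicRoots, IsTwoTorsionRoots V T ∧ IsDihedralSetup T (badPrimes V) ∧
      (residualTwo V hV.delta_ne_zero).IsEquiv (rhoBar T) := by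
  have := EC.isElliptic_map_rat hV.delta_ne_zero
  obtain ⟨q, hq, hq2, hd, hc4, hv⟩ := hV.exists_odd_bad
  let b := EC.tateRepBasis (V.map (Int.castRingHom ℚ)) 2
  obtain ⟨T, hroots, hcompat⟩ := exists_torsionRoots b fun M hM =>
    exists_levelHom_eq_of_det_eq_one hV.delta_ne_zero hq hq2 hd hc4 hv hV.no_two_torsion b 1 M hM
  have hT : ∀ (g : Γℚ) (v : V2),
      toSum ((LinearMap.toMatrix b b ((EC.tateRep (V.map (Int.castRingHom ℚ)) 2).ρ g)).map
        PadicInt.toZMod *ᵥ v) = T.act g (toSum v) := fun g v => by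
    rw [← redMat_levelHom_eq b one_ne_zero]
    exact hcompat 1 one_ne_zero g v
  have hmove : ∀ g : Γℚ, (∃ P : ((V.map (Int.castRingHom ℚ))⁄Qb).Point, 2 • P = 0 ∧ g • P ≠ P) →
      T.perm g ≠ 1 := fun g ⟨P, hP, hne⟩ h =>
    hne (smul_eq_self_of_toMatrix_map_eq_one ((perm_eq_one_iff_of_compat (hT g)).1 h) P hP)
  refine ⟨T, hroots, ⟨fun v hv => ((mem_badPrimes_iff hV.delta_ne_zero).1 hv).1,
    (mem_badPrimes_iff hV.delta_ne_zero).2 ⟨Nat.prime_two, hV.two_dvd⟩,
    fun l hl hlS A hA σ hσ => ?_, fun l hl A hA => ?_, fun l hl A hA => ?_,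
    hmove _ (exists_two_torsion_complexConjugation_ne hV.delta_neg)⟩,
    residual_isEquiv_rhoBar b T hT⟩
  · have hgood : V.IsGoodPrimeFor l := fun hd' =>
      hlS ((mem_badPrimes_iff hV.delta_ne_zero).2 ⟨hl, hd'⟩)
    refine (perm_eq_one_iff_of_compat (hT σ)).2 ?_
    rw [EC.tateRep_isUnramifiedAt hV.delta_ne_zero 2 hl hgood (fun h => hgood (h ▸ hV.two_dvd))
      A hA σ hσ, LinearMap.toMatrix_one, Matrix.map_one _ (map_zero _) (map_one _)]
  · obtain ⟨hlp, hld⟩ := (mem_badPrimes_iff hV.delta_ne_zero).1 hl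
    obtain ⟨σ, hσ, hP⟩ :=
      exists_two_torsion_inertia_ne hV.delta_ne_zero hlp hA (hV.odd_val l hlp hld)
    exact ⟨σ, hσ, hmove σ hP⟩
  · obtain ⟨hlp, hld⟩ := (mem_badPrimes_iff hV.delta_ne_zero).1 hl
    obtain ⟨F, -, b₁, u, -, -, -, -, -, hall⟩ := exists_frobenius_line_bad hlp hV.delta_ne_zero hld
      (hV.semistable l hlp hld) (hV.odd_val l hlp hld) A hA
    -- the first vector of the adapted basis spans a fixed line of `V[2]`
    set v : V2 := fun i => PadicInt.toZMod (b.repr (b₁ 0) i) with hvdef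
    have hv0 : v ≠ 0 := by
      intro h
      have h1 : twoPoint b₁ (fun i => PadicInt.toZMod (b₁.repr (b₁ 0) i)) = twoPoint b v := by
        rw [twoPoint_repr, hvdef, twoPoint_repr]
      rw [h, twoPoint_zero] at h1
      refine twoPoint_ne_zero b₁ (fun h2 => ?_) h1
      simpa using congrFun h2 0
    refine ⟨vecRoot v, fun σ hσ => ?_⟩
    obtain ⟨t, ht⟩ := hall σ hσ
    have hfix : (LinearMap.toMatrix b b ((EC.tateRep (V.map (Int.castRingHom ℚ)) 2).ρ σ)).map
        PadicInt.toZMod *ᵥ v = v := by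
      apply twoPoint_injective b
      rw [← smul_twoPoint, hvdef, twoPoint_repr, ← twoPoint_repr b₁, smul_twoPoint, ht]
      congr 1
      funext i
      fin_cases i <;> simp [Matrix.mulVec, dotProduct, Fin.sum_univ_two]
    have h := perm_apply_of_compat (hT σ) (vecRoot v)
    rw [Selmer.rootVec_vecRoot v hv0, hfix] at h
    rw [← Selmer.vecRoot_rootVec (T.perm σ (vecRoot v)), h]

end Fermat.Agent.TwoAdic
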