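import Fermat.Agent.TwoAdic.SLImage
import Fermat.Agent.TwoAdic.Switch.Galois.TwoTorsion
import Fermat.Agent.EC.Tate.Properties

/-!
# The `2`-adic image of a curve with a transvection

`levelHom b n` is the matrix of the action on `E[2ⁿ]` in the basis induced by a basis `b` of the
Tate module.  At a multiplicative prime with `ord_q Δ` odd inertia contains a residual
transvection; if moreover `q` is odd and the `2`-division cubic has no rational root, the image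
at every level contains `SL₂`.
-/

set_option autoImplicit false

noncomputable section

open Matrix WeierstrassCurve
open scoped WeierstrassCurve.Affine

namespace Fermat.Agent.TwoAdic

local notation "Qb" => AlgebraicClosure ℚ
local notation "Γℚ" => (AlgebraicClosure ℚ ≃ₐ[ℚ] AlgebraicClosure ℚ)

/-! ### Subgroups of `GL₂(ℤ/2ⁿ)` -/

lemma mkSL_upper_pow {n : ℕ} (u : ZMod (2 ^ n)) (k : ℕ) :
    mkSL !![1, u; 0, 1] (upper_det u) ^ k =
      mkSL !![1, (k : ZMod (2 ^ n)) * u; 0, 1] (upper_det _) := by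
  induction k with
  | zero =>
    ext i j
    fin_cases i <;> fin_cases j <;> simp
  | succ k ih =>
    rw [pow_succ, ih]
    ext i j
    fin_cases i <;> fin_cases j <;> simp [Matrix.mul_apply, Fin.sum_univ_two]
    ring

lemma mkSL_upper_pow_inv {n : ℕ} {u : ZMod (2 ^ n)} (hu : IsUnit u) (x : ZMod (2 ^ n)) :
    ∃ k : ℕ, mkSL !![1, u; 0, 1] (upper_det u) ^ k = mkSL !![1, x; 0, 1] (upper_det x) := by
  obtain ⟨v, rfl⟩ := hu
  have : NeZero (2 ^ n) := ⟨pow_ne_zero n two_ne_zero⟩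
  refine ⟨(x * ↑v⁻¹).val, Units.ext ?_⟩
  rw [mkSL_upper_pow, coe_mkSL, coe_mkSL, ZMod.natCast_zmod_val, Units.inv_mul_cancel_right]

/-- A transvection and an element moving its line generate a subgroup containing `SL₂`. -/
theorem det_one_mem_of_transvection {n : ℕ} (hn : n ≠ 0)
    (H : Subgroup (GL (Fin 2) (ZMod (2 ^ n)))) {u : ZMod (2 ^ n)} (hu : IsUnit u)
    (hU : mkSL !![1, u; 0, 1] (upper_det u) ∈ H) {g : GL (Fin 2) (ZMod (2 ^ n))} (hg : g ∈ H)
    (hc : IsUnit (g.1 1 0)) (M : GL (Fin 2) (ZMod (2 ^ n))) (hM : M.1.det = 1) : M ∈ H := by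
  have hUx : ∀ x : ZMod (2 ^ n), mkSL !![1, x; 0, 1] (upper_det x) ∈ H := fun x => by
    obtain ⟨k, hk⟩ := mkSL_upper_pow_inv hu x
    exact hk ▸ H.pow_mem hU k
  obtain ⟨c, hc⟩ := hc
  set β : ZMod (2 ^ n) := g.1 0 1 - g.1 0 0 * g.1 1 1 * ↑c⁻¹
  obtain ⟨w, hwH, hw⟩ : ∃ w ∈ H, w.1 = !![0, β; (c : ZMod (2 ^ n)), 0] := by
    refine ⟨_, H.mul_mem (H.mul_mem (hUx (-(g.1 0 0 * ↑c⁻¹))) hg) (hUx (-(g.1 1 1 * ↑c⁻¹))), ?_⟩
    have hci : (c : ZMod (2 ^ n)) * ↑c⁻¹ = 1 := c.mul_inv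
    ext i j
    fin_cases i <;> fin_cases j <;> simp [β, Matrix.mul_apply, Matrix.vecMul, dotProduct, Fin.sum_univ_two, ← hc]
    all_goals grobner
  have hL : ∀ y : ZMod (2 ^ n), mkSL !![1, 0; y, 1] (lower_det y) ∈ H := by
    intro y
    have hci : (c : ZMod (2 ^ n)) * ↑c⁻¹ = 1 := c.mul_inv
    convert! H.mul_mem (H.mul_mem hwH (hUx (y * β * ↑c⁻¹))) (H.inv_mem hwH) using 1
    rw [eq_mul_inv_iff_mul_eq]
    ext i j
    fin_cases i <;> fin_cases j <;> simp [hw, Matrix.mul_apply, Fin.sum_univ_two]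
    all_goals grobner
  refine mem_of_det_eq_one hn H (hUx 1) ?_ M hM
  convert! H.mul_mem (H.mul_mem (hUx (-1)) (hL 1)) (hUx (-1)) using 1
  ext i j
  fin_cases i <;> fin_cases j <;> simp [Matrix.mul_apply, Fin.sum_univ_two]

/-! ### Matrices of the action on the levels -/

variable {W : WeierstrassCurve ℤ} [(W.map (Int.castRingHom ℚ)).IsElliptic]

/-- The action on `E[2ⁿ]` in the basis induced by a basis of the Tate module. -/
def levelHom (b : Module.Basis (Fin 2) ℤ_[2] (EC.tateRep (W.map (Int.castRingHom ℚ)) 2).V)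
    (n : ℕ) : Γℚ →* GL (Fin 2) (ZMod (2 ^ n)) :=
  (((PadicInt.toZModPow (p := 2) n).mapMatrix (m := Fin 2)).toMonoidHom.comp
    ((LinearMap.toMatrixAlgEquiv b).toMulEquiv.toMonoidHom.comp
      (EC.tateRep (W.map (Int.castRingHom ℚ)) 2).ρ)).toHomUnits

lemma coe_levelHom
    (b : Module.Basis (Fin 2) ℤ_[2] (EC.tateRep (W.map (Int.castRingHom ℚ)) 2).V) (n : ℕ)
    (σ : Γℚ) :
    (levelHom b n σ).1 =
      (LinearMap.toMatrix b b ((EC.tateRep (W.map (Int.castRingHom ℚ)) 2).ρ σ)).map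
        (PadicInt.toZModPow n) := rfl

/-- Changing the basis conjugates the level representations. -/
theorem exists_conj_levelHom
    (b b' : Module.Basis (Fin 2) ℤ_[2] (EC.tateRep (W.map (Int.castRingHom ℚ)) 2).V) (n : ℕ) :
    ∃ γ : GL (Fin 2) (ZMod (2 ^ n)), ∀ σ, levelHom b' n σ = γ * levelHom b n σ * γ⁻¹ := by
  let f := (PadicInt.toZModPow (p := 2) n).mapMatrix (m := Fin 2)
  let γ : GL (Fin 2) (ZMod (2 ^ n)) := ⟨f (b'.toMatrix b), f (b.toMatrix b'),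
    by rw [← map_mul, Module.Basis.toMatrix_mul_toMatrix_flip, map_one],
    by rw [← map_mul, Module.Basis.toMatrix_mul_toMatrix_flip, map_one]⟩
  refine ⟨γ, fun σ => Units.ext ?_⟩
  show f (LinearMap.toMatrix b' b' _) = f _ * f (LinearMap.toMatrix b b _) * f _
  rw [← map_mul, ← map_mul, basis_toMatrix_mul_linearMap_toMatrix_mul_basis_toMatrix]

lemma redHom_toZModPow {n : ℕ} (hn : n ≠ 0) (z : ℤ_[2]) :
    redHom hn (PadicInt.toZModPow n z) = PadicInt.toZMod z := by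
  have h : z - ((PadicInt.toZMod z).val : ℤ_[2]) ∈ IsLocalRing.maximalIdeal ℤ_[2] := by
    rw [← PadicInt.ker_toZMod, RingHom.mem_ker, map_sub, map_natCast, ZMod.natCast_zmod_val,
      sub_self]
  rw [PadicInt.maximalIdeal_eq_span_p, Ideal.mem_span_singleton'] at h
  obtain ⟨a, ha⟩ := h
  conv_lhs => rw [← sub_add_cancel z ((PadicInt.toZMod z).val : ℤ_[2]), ← ha]
  rw [map_add, map_add, map_mul, map_mul, map_natCast, map_natCast, map_natCast, map_natCast,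
    ZMod.natCast_self, mul_zero, zero_add, ZMod.natCast_zmod_val]

lemma redMat_levelHom
    (b : Module.Basis (Fin 2) ℤ_[2] (EC.tateRep (W.map (Int.castRingHom ℚ)) 2).V) {n : ℕ}
    (hn : n ≠ 0) (σ : Γℚ) :
    (redGL hn (levelHom b n σ)).1 =
      (LinearMap.toMatrix b b ((EC.tateRep (W.map (Int.castRingHom ℚ)) 2).ρ σ)).map
        PadicInt.toZMod := by
  ext i j
  rw [coe_redGL, coe_levelHom, Matrix.map_apply, Matrix.map_apply, Matrix.map_apply,
    redHom_toZModPow]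

/-- An element with trivial matrix modulo `2` fixes `E[2]` pointwise. -/
theorem smul_eq_self_of_toMatrix_map_eq_one
    {b : Module.Basis (Fin 2) ℤ_[2] (EC.tateRep (W.map (Int.castRingHom ℚ)) 2).V} {σ : Γℚ}
    (h : (LinearMap.toMatrix b b ((EC.tateRep (W.map (Int.castRingHom ℚ)) 2).ρ σ)).map
      PadicInt.toZMod = 1)
    (P : ((W.map (Int.castRingHom ℚ))⁄Qb).Point) (hP : 2 • P = 0) : σ • P = P := by
  let π := EC.tateProjOne (W.map (Int.castRingHom ℚ)) 2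
  have hb : ∀ j, π ((EC.tateRep (W.map (Int.castRingHom ℚ)) 2).ρ σ (b j)) = π (b j) := by
    intro j
    rw [← b.sum_repr ((EC.tateRep (W.map (Int.castRingHom ℚ)) 2).ρ σ (b j)), map_sum,
      Finset.sum_eq_single j]
    · rw [EC.tateProjOne_smul]
      have := congrFun (congrFun h j) j
      rw [Matrix.map_apply, LinearMap.toMatrix_apply, Matrix.one_apply_eq] at this
      rw [this, one_smul]
    · intro i _ hi
      rw [EC.tateProjOne_smul]
      have := congrFun (congrFun h i) j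
      rw [Matrix.map_apply, LinearMap.toMatrix_apply, Matrix.one_apply_ne hi] at this
      rw [this, zero_smul]
    · exact fun hj => absurd (Finset.mem_univ j) hj
  obtain ⟨v, hv⟩ := EC.tateProjOne_surjective (W.map (Int.castRingHom ℚ)) 2
    ⟨P, (Submodule.mem_torsionBy_iff _ _).2 (by rw [natCast_zsmul]; exact hP)⟩
  have key : σ • π v = π v := by
    rw [← EC.tateProjOne_ρ]
    show π _ = π v
    rw [← b.sum_repr v, map_sum, map_sum, map_sum]
    refine Finset.sum_congr rfl fun j _ => ?_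
    rw [map_smul, EC.tateProjOne_smul, EC.tateProjOne_smul, hb]
  rw [show π v = _ from hv] at key
  exact congrArg Subtype.val key

/-- Without rational roots of the `2`-division cubic the lower left entry is somewhere odd. -/
theorem exists_lower_entry_isUnit (hΔ : W.Δ ≠ 0)
    (hroot : ∀ x : ℚ, 4 * x ^ 3 + (W.b₂ : ℚ) * x ^ 2 + 2 * (W.b₄ : ℚ) * x + (W.b₆ : ℚ) ≠ 0)
    (b : Module.Basis (Fin 2) ℤ_[2] (EC.tateRep (W.map (Int.castRingHom ℚ)) 2).V) :
    ∃ σ : Γℚ,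
      IsUnit (LinearMap.toMatrix b b ((EC.tateRep (W.map (Int.castRingHom ℚ)) 2).ρ σ) 1 0) := by
  let π := EC.tateProjOne (W.map (Int.castRingHom ℚ)) 2
  have hne : π (b 0) ≠ 0 := by
    obtain ⟨bn, hbn⟩ := EC.exists_levelBasis (W.map (Int.castRingHom ℚ)) 2 b 1
    have : Fact (1 < 2 ^ 1) := ⟨by norm_num⟩
    intro h
    refine bn.ne_zero 0 ?_
    rw [hbn]
    exact (EC.torsionPowOneEquiv (W.map (Int.castRingHom ℚ)) 2).map_eq_zero_iff.1 h
  obtain ⟨σ, hσ⟩ := exists_smul_ne_of_two_torsion hΔ hroot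
    (P := (π (b 0)).1) (by rw [← natCast_zsmul]; exact (π (b 0)).2)
    (fun h => hne (Subtype.ext h))
  refine ⟨σ, by_contra fun hu => hσ ?_⟩
  rw [LinearMap.toMatrix_apply] at hu
  have hu' : PadicInt.toZMod (b.repr ((EC.tateRep (W.map (Int.castRingHom ℚ)) 2).ρ σ (b 0)) 1) =
      0 := by
    rw [← RingHom.mem_ker, PadicInt.ker_toZMod, IsLocalRing.mem_maximalIdeal]
    exact hu
  set r := PadicInt.toZMod (b.repr ((EC.tateRep (W.map (Int.castRingHom ℚ)) 2).ρ σ (b 0)) 0)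
  have hσP : σ • π (b 0) = r • π (b 0) := by
    rw [← EC.tateProjOne_ρ]
    show π _ = _
    conv_lhs => rw [← b.sum_repr ((EC.tateRep (W.map (Int.castRingHom ℚ)) 2).ρ σ (b 0))]
    rw [Fin.sum_univ_two, map_add, EC.tateProjOne_smul, EC.tateProjOne_smul, hu', zero_smul,
      add_zero]
  have hr : r = 0 ∨ r = 1 := by
    have h : ∀ a : ZMod 2, a = 0 ∨ a = 1 := by decide
    exact h r
  rcases hr with h | h
  · rw [h, zero_smul, smul_eq_zero_iff_eq] at hσP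
    exact absurd hσP hne
  · rw [h, one_smul] at hσP
    exact congrArg Subtype.val hσP

/-! ### Inertia at a multiplicative prime -/

/-- At a multiplicative prime `q` with `ord_q Δ` odd: a stable line, inertia trivial on the
quotient, decomposition acting there by signs, and an inertia element `!![x, y; 0, 1]` with `y`
odd (and `x = 1` unless `q = 2`). -/
theorem exists_tateLine_transvection {q : ℕ} (hq : q.Prime) (hΔ : W.Δ ≠ 0)
    (hbad : (q : ℤ) ∣ W.Δ) (hc4 : ¬ (q : ℤ) ∣ W.c₄) (hv : Odd (padicValInt q W.Δ))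
    (A : ValuationSubring Qb) (hA : A.LiesOverPrime q) :
    ∃ b : Module.Basis (Fin 2) ℤ_[2] (EC.tateRep (W.map (Int.castRingHom ℚ)) 2).V,
      (∀ σ ∈ A.decompositionSubgroup ℚ, ∀ v ∈ ℤ_[2] ∙ b 0,
        (EC.tateRep (W.map (Int.castRingHom ℚ)) 2).ρ σ v ∈ ℤ_[2] ∙ b 0) ∧
      (∀ σ ∈ A.inertiaSubgroupIn ℚ, ∀ v,
        (EC.tateRep (W.map (Int.castRingHom ℚ)) 2).ρ σ v - v ∈ ℤ_[2] ∙ b 0) ∧
      (∀ σ ∈ A.decompositionSubgroup ℚ, ∃ z : ℤ_[2], z * z = 1 ∧
        ∀ v, (EC.tateRep (W.map (Int.castRingHom ℚ)) 2).ρ σ v - z • v ∈ ℤ_[2] ∙ b 0) ∧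
      ∃ σ ∈ A.inertiaSubgroupIn ℚ, ∃ x y : ℤ_[2],
        LinearMap.toMatrix b b ((EC.tateRep (W.map (Int.castRingHom ℚ)) 2).ρ σ) = !![x, y; 0, 1] ∧
        IsUnit y ∧ (q ≠ 2 → x = 1) := by
  obtain ⟨b, hD, hI, hchar⟩ := EC.exists_tateLine W 2 hq hΔ hbad hc4 A hA
  refine ⟨b, hD, hI, fun σ hσ => ?_, ?_⟩
  · obtain ⟨-, z, hzz, -, hz, -⟩ := hchar σ hσ
    exact ⟨z, hzz, hz⟩
  obtain ⟨σ, hσ, P, hP, hne⟩ := exists_two_torsion_inertia_ne hΔ hq hA hv
  have hσD := EC.Mult.mem_decompositionSubgroup_of_mem_inertia hσ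
  obtain ⟨x, z, -, hx, hz, -, -, hxeq⟩ := hchar σ hσD
  obtain ⟨y, hy⟩ := Submodule.mem_span_singleton.mp (hI σ hσ (b 1))
  have e0 : (EC.tateRep (W.map (Int.castRingHom ℚ)) 2).ρ σ (b 0) = x • b 0 :=
    hx _ (Submodule.mem_span_singleton_self _)
  have e1 : (EC.tateRep (W.map (Int.castRingHom ℚ)) 2).ρ σ (b 1) = y • b 0 + b 1 := by
    rw [hy, sub_add_cancel]
  have hmat : LinearMap.toMatrix b b ((EC.tateRep (W.map (Int.castRingHom ℚ)) 2).ρ σ) =
      !![x, y; 0, 1] := by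
    ext i j
    fin_cases i <;> fin_cases j <;> simp [LinearMap.toMatrix_apply, e0, e1]
  have hz1 : z = 1 := by
    have h : (1 - z) • b 1 ∈ ℤ_[2] ∙ b 0 := by
      have := Submodule.sub_mem _ (hz (b 1)) (hI σ hσ (b 1))
      rwa [sub_sub_sub_cancel_left, ← one_smul ℤ_[2] (b 1), smul_smul, mul_one, ← sub_smul] at this
    obtain ⟨r, hr⟩ := Submodule.mem_span_singleton.mp h
    have h' := congrArg (fun v => b.repr v 1) hr
    simp at h'
    exact (sub_eq_zero.mp h'.symm).symm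
  refine ⟨σ, hσ, x, y, hmat, by_contra fun hu => hne ?_, fun hq2 => ?_⟩
  · refine smul_eq_self_of_toMatrix_map_eq_one (b := b) ?_ P hP
    have hx1 : PadicInt.toZMod x = 1 := by
      have hu1 : IsUnit (LinearMap.det ((EC.tateRep (W.map (Int.castRingHom ℚ)) 2).ρ σ)) :=
        (Group.isUnit σ).map ((LinearMap.det).comp (EC.tateRep (W.map (Int.castRingHom ℚ)) 2).ρ)
      rw [← LinearMap.det_toMatrix b, hmat, Matrix.det_fin_two_of] at hu1
      have h2 : ∀ a : ZMod 2, a ≠ 0 → a = 1 := by decide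
      refine h2 _ (IsUnit.ne_zero ?_)
      simpa using hu1.map (PadicInt.toZMod (p := 2))
    have hy0 : PadicInt.toZMod y = 0 := by
      rw [← RingHom.mem_ker, PadicInt.ker_toZMod, IsLocalRing.mem_maximalIdeal]
      exact hu
    rw [hmat]
    ext i j
    fin_cases i <;> fin_cases j <;> simp [hx1, hy0]
  · refine PadicInt.ext_of_toZModPow.1 fun n => ?_
    have : NeZero (2 ^ n) := ⟨pow_ne_zero n two_ne_zero⟩
    rw [hxeq (Ne.symm hq2) n 1 fun μ hμ => ?_, hz1, Nat.cast_one, mul_one]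
    rw [EC.apply_eq_pow_cycloChar (2 ^ n) σ hμ, EC.cycloChar_eq_one_of_mem_inertia hq
      (fun h => hq2 ((Nat.prime_dvd_prime_iff_eq hq Nat.prime_two).1 (hq.dvd_of_dvd_pow h))) hA hσ,
      Units.val_one]
    rcases eq_or_ne (2 ^ n) 1 with h1 | h1
    · rw [h1, pow_one] at hμ
      simp [hμ]
    · have : Fact (1 < 2 ^ n) :=
        ⟨lt_of_le_of_ne (Nat.pos_of_ne_zero (NeZero.ne _)) (Ne.symm h1)⟩
      rw [ZMod.val_one]

/-- At an odd multiplicative prime with `ord_q Δ` odd, every level has an inertia element equal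
to the standard transvection in a basis adapted to the decomposition line. -/
theorem exists_inertia_eq_transvection {q : ℕ} (hq : q.Prime) (hq2 : q ≠ 2) (hΔ : W.Δ ≠ 0)
    (hbad : (q : ℤ) ∣ W.Δ) (hc4 : ¬ (q : ℤ) ∣ W.c₄) (hv : Odd (padicValInt q W.Δ))
    (A : ValuationSubring Qb) (hA : A.LiesOverPrime q) :
    ∃ b : Module.Basis (Fin 2) ℤ_[2] (EC.tateRep (W.map (Int.castRingHom ℚ)) 2).V,
      (∀ σ ∈ A.decompositionSubgroup ℚ, ∀ v ∈ ℤ_[2] ∙ b 0,
        (EC.tateRep (W.map (Int.castRingHom ℚ)) 2).ρ σ v ∈ ℤ_[2] ∙ b 0) ∧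
      ∀ n, ∃ σ ∈ A.inertiaSubgroupIn ℚ,
        levelHom b n σ = mkSL !![1, 1; 0, 1] (upper_det 1) := by
  obtain ⟨b, hD, -, -, σ, hσ, x, y, hmat, hy, hx⟩ :=
    exists_tateLine_transvection hq hΔ hbad hc4 hv A hA
  refine ⟨b, hD, fun n => ?_⟩
  have h : levelHom b n σ = mkSL !![1, PadicInt.toZModPow n y; 0, 1] (upper_det _) := by
    refine Units.ext ?_
    rw [coe_levelHom, hmat, hx hq2, coe_mkSL]
    ext i j
    fin_cases i <;> fin_cases j <;> simp
  obtain ⟨k, hk⟩ := mkSL_upper_pow_inv (hy.map (PadicInt.toZModPow (p := 2) n)) 1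
  exact ⟨σ ^ k, Subgroup.pow_mem _ hσ k, by rw [map_pow, h, hk]⟩

/-- **The image contains `SL₂` at every level**, in every basis. -/
theorem exists_levelHom_eq_of_det_eq_one (hΔ : W.Δ ≠ 0) {q : ℕ} (hq : q.Prime) (hq2 : q ≠ 2)
    (hbad : (q : ℤ) ∣ W.Δ) (hc4 : ¬ (q : ℤ) ∣ W.c₄) (hv : Odd (padicValInt q W.Δ))
    (hroot : ∀ x : ℚ, 4 * x ^ 3 + (W.b₂ : ℚ) * x ^ 2 + 2 * (W.b₄ : ℚ) * x + (W.b₆ : ℚ) ≠ 0)
    (b : Module.Basis (Fin 2) ℤ_[2] (EC.tateRep (W.map (Int.castRingHom ℚ)) 2).V) (n : ℕ)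
    (M : GL (Fin 2) (ZMod (2 ^ n))) (hM : M.1.det = 1) : ∃ σ : Γℚ, levelHom b n σ = M := by
  rcases eq_or_ne n 0 with rfl | hn
  · have : Subsingleton (ZMod (2 ^ 0)) := by rw [pow_zero]; infer_instance
    exact ⟨1, Units.ext (Subsingleton.elim _ _)⟩
  obtain ⟨A, hA⟩ := Galois.exists_valuationSubring_liesOverPrime (L := Qb) hq
  obtain ⟨b₀, -, hT⟩ := exists_inertia_eq_transvection hq hq2 hΔ hbad hc4 hv A hA
  obtain ⟨σ₁, -, h₁⟩ := hT n
  obtain ⟨σ₂, h₂⟩ := exists_lower_entry_isUnit hΔ hroot b₀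
  obtain ⟨γ, hγ⟩ := exists_conj_levelHom b₀ b n
  have hmem := det_one_mem_of_transvection hn (levelHom b₀ n).range (u := 1) isUnit_one
    ⟨σ₁, h₁⟩ ⟨σ₂, rfl⟩ (by rw [coe_levelHom, Matrix.map_apply]; exact h₂.map _)
    (γ⁻¹ * M * γ) (by rw [Units.val_mul, Units.val_mul, Matrix.det_mul, Matrix.det_mul, hM,
      mul_one, ← Matrix.det_mul, ← Units.val_mul, inv_mul_cancel, Units.val_one, Matrix.det_one])
  obtain ⟨σ, hσ⟩ := hmem
  exact ⟨σ, by rw [hγ, hσ]; group⟩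

end Fermat.Agent.TwoAdic
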